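import Fermat.Agent.S56.Flat.Dev.Ext3

/-!
# PROJECT T (S56), block (a3) `S56/Flat`, devissage slice `Dev/Count` (helper16)

Pure linear algebra (no flatness): the two rank–nullity steps of the devissage and the
bookkeeping `card (U / B) * card N ≤ card U' * card H⁰`.

* `ncard_le_of_ker`   : `#U ≤ #S * #K` if `f U ⊆ S` and `U ∩ ker f ⊆ K`;
* `Zalg`, `Balg`, `H0alg`, `tz`, `b0` : algebraic cocycles, coboundaries, invariants, trace-zero
  matrices, upper triangular trace-zero matrices;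
* `card_quot_mul_le`  : for `B' ≤ U'`, `B' ≤ B ≤ U ≤ U' + B`: `#(U/B) * #B' ≤ #U'`;
* `card_le_mul_card_map_dcob` : `#N ≤ #H⁰ * #d(N)` for `N ≤ tz`;
* `ncard_le_three`, `ncard_le_two` : the filtration by matrix entries.
-/

set_option autoImplicit false
set_option linter.style.haveILetI false
set_option linter.unusedVariables false

noncomputable section

namespace Fermat.Agent.S56.Flat.Dev

open Fermat.Agent.S56.Flat.Dict Fermat.Agent.CFT.LocalBridge Matrix

/-! ### rank–nullity for cardinalities -/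

theorem ncard_le_of_ker {V W : Type*} [AddCommGroup V] [AddCommGroup W] (U : AddSubgroup V)
    (f : V →+ W) (S : Set W) (hS : S.Finite) (hf : ∀ u ∈ U, f u ∈ S) (K : Set V) (hK : K.Finite)
    (hker : ∀ u ∈ U, f u = 0 → u ∈ K) :
    (U : Set V).Finite ∧ (U : Set V).ncard ≤ S.ncard * K.ncard := by
  classical
  let σ : W → V := fun w => if h : ∃ u ∈ U, f u = w then h.choose else 0
  have hσ : ∀ u ∈ U, σ (f u) ∈ U ∧ f (σ (f u)) = f u := by
    intro u hu
    have h : ∃ u' ∈ U, f u' = f u := ⟨u, hu, rfl⟩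
    have : σ (f u) = h.choose := dif_pos h
    rw [this]
    exact h.choose_spec
  let φ : V → W × V := fun u => (f u, u - σ (f u))
  have hmaps : Set.MapsTo φ (U : Set V) (S ×ˢ K) := by
    intro u hu
    refine ⟨hf u hu, hker _ (U.sub_mem hu (hσ u hu).1) ?_⟩
    rw [map_sub, (hσ u hu).2, sub_self]
  have hinj : Set.InjOn φ (U : Set V) := by
    intro u _ u' _ h
    have h1 : f u = f u' := congrArg Prod.fst h
    have h2 : u - σ (f u) = u' - σ (f u') := congrArg Prod.snd h
    rw [h1] at h2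
    exact sub_left_injective h2
  have hfin : (S ×ˢ K).Finite := hS.prod hK
  refine ⟨Set.Finite.of_injOn hmaps hinj hfin, ?_⟩
  calc (U : Set V).ncard ≤ (S ×ˢ K).ncard := Set.ncard_le_ncard_of_injOn φ hmaps hinj hfin
    _ = S.ncard * K.ncard := Set.ncard_prod

/-! ### quotient bookkeeping -/

theorem card_quot_mul_le {k V : Type*} [Field k] [AddCommGroup V] [Module k V]
    (U U' B B' : Submodule k V) (hfin : (U' : Set V).Finite) (hBU : B ≤ U) (hB'B : B' ≤ B)
    (hB'U' : B' ≤ U') (hU'U : U' ≤ U) (hsup : U ≤ U' ⊔ B) :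
    Finite (↥U ⧸ B.comap U.subtype) ∧
      Nat.card (↥U ⧸ B.comap U.subtype) * Nat.card ↥B' ≤ Nat.card ↥U' := by
  haveI : Finite ↥U' := hfin
  let φ : ↥U' →ₗ[k] ↥U ⧸ B.comap U.subtype :=
    (B.comap U.subtype).mkQ.comp (Submodule.inclusion hU'U)
  have hφ : Function.Surjective φ := by
    intro x
    induction x using Submodule.Quotient.induction_on with
    | _ u =>
      obtain ⟨u', hu', b, hb, hub⟩ := Submodule.mem_sup.1 (hsup u.2)
      refine ⟨⟨u', hu'⟩, ?_⟩
      change Submodule.Quotient.mk _ = Submodule.Quotient.mk _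
      rw [Submodule.Quotient.eq]
      change ((Submodule.inclusion hU'U ⟨u', hu'⟩ - u : ↥U) : V) ∈ B
      have : ((Submodule.inclusion hU'U ⟨u', hu'⟩ - u : ↥U) : V) = -b := by
        rw [Submodule.coe_sub, Submodule.coe_inclusion, ← hub]
        change u' - (u' + b) = -b
        abel
      rw [this]
      exact B.neg_mem hb
  haveI : Finite (↥U ⧸ B.comap U.subtype) := Finite.of_surjective φ hφ
  refine ⟨inferInstance, ?_⟩
  have h1 : Nat.card ↥U' = Nat.card ↥(LinearMap.ker φ) * Nat.card (↥U' ⧸ LinearMap.ker φ) :=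
    Submodule.card_eq_card_quotient_mul_card (LinearMap.ker φ)
  have h2 : Nat.card (↥U' ⧸ LinearMap.ker φ) = Nat.card (↥U ⧸ B.comap U.subtype) :=
    Nat.card_congr (φ.quotKerEquivOfSurjective hφ).toEquiv
  have h3 : Nat.card ↥B' ≤ Nat.card ↥(LinearMap.ker φ) := by
    let ι : ↥B' → ↥(LinearMap.ker φ) := fun b => ⟨⟨b.1, hB'U' b.2⟩, by
      rw [LinearMap.mem_ker]
      change Submodule.Quotient.mk _ = 0
      rw [Submodule.Quotient.mk_eq_zero]
      exact hB'B b.2⟩
    have hι : Function.Injective ι := by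
      intro b b' h
      apply Subtype.ext
      exact congrArg (fun x : ↥(LinearMap.ker φ) => ((x : ↥U') : V)) h
    exact Nat.card_le_card_of_injective ι hι
  calc Nat.card (↥U ⧸ B.comap U.subtype) * Nat.card ↥B'
      ≤ Nat.card (↥U ⧸ B.comap U.subtype) * Nat.card ↥(LinearMap.ker φ) :=
        Nat.mul_le_mul_left _ h3
    _ = Nat.card ↥U' := by rw [h1, h2, mul_comm]

/-! ### algebraic cocycles and coboundaries -/

variable {p : ℕ} [Fact p.Prime] {k : Type} [Field k]

/-- trace-zero matrices -/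
def tz (k : Type) [Field k] : Submodule k (Matrix (Fin 2) (Fin 2) k) :=
  LinearMap.ker (Matrix.traceLinearMap (Fin 2) k k)

theorem mem_tz {X : Matrix (Fin 2) (Fin 2) k} : X ∈ tz k ↔ X.trace = 0 := by
  rw [tz, LinearMap.mem_ker, Matrix.traceLinearMap_apply]

/-- upper triangular trace-zero matrices -/
def b0 (k : Type) [Field k] : Submodule k (Matrix (Fin 2) (Fin 2) k) where
  carrier := {X | X.trace = 0 ∧ X 1 0 = 0}
  zero_mem' := ⟨Matrix.trace_zero _ _, rfl⟩
  add_mem' := fun {X Y} hX hY => ⟨by rw [Matrix.trace_add, hX.1, hY.1, add_zero],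
    by rw [Matrix.add_apply, hX.2, hY.2, add_zero]⟩
  smul_mem' := fun a X hX => ⟨by rw [Matrix.trace_smul, hX.1, smul_zero],
    by rw [Matrix.smul_apply, hX.2, smul_zero]⟩

theorem b0_le_tz : b0 k ≤ tz k := fun _ hX => mem_tz.2 hX.1

theorem card_tz [Finite k] : Nat.card ↥(tz k) = Nat.card k ^ 3 := by
  let e : ↥(tz k) ≃ k × k × k :=
    { toFun := fun X => (X.1 0 0, X.1 0 1, X.1 1 0)
      invFun := fun t => ⟨!![t.1, t.2.1; t.2.2, -t.1], by
        rw [mem_tz, Matrix.trace_fin_two]; simp⟩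
      left_inv := fun X => by
        have hX : X.1 0 0 + X.1 1 1 = 0 := by
          have := mem_tz.1 X.2
          rwa [Matrix.trace_fin_two] at this
        apply Subtype.ext
        ext i j
        fin_cases i <;> fin_cases j <;> simp
        exact (eq_neg_of_add_eq_zero_right hX).symm
      right_inv := fun t => by simp }
  rw [Nat.card_congr e, Nat.card_prod, Nat.card_prod]
  ring

theorem card_b0 [Finite k] : Nat.card ↥(b0 k) = Nat.card k ^ 2 := by
  let e : ↥(b0 k) ≃ k × k :=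
    { toFun := fun X => (X.1 0 0, X.1 0 1)
      invFun := fun t => ⟨!![t.1, t.2; 0, -t.1], by
        refine ⟨?_, ?_⟩
        · rw [Matrix.trace_fin_two]; simp
        · simp⟩
      left_inv := fun X => by
        have hX : X.1 0 0 + X.1 1 1 = 0 := by
          have := X.2.1
          rwa [Matrix.trace_fin_two] at this
        have hX' : X.1 1 0 = 0 := X.2.2
        apply Subtype.ext
        ext i j
        fin_cases i <;> fin_cases j <;> simp
        · exact hX'.symm
        · exact (eq_neg_of_add_eq_zero_right hX).symm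
      right_inv := fun t => by simp }
  rw [Nat.card_congr e, Nat.card_prod]
  ring

variable (rb : LocGal p →* GL (Fin 2) k)

/-- algebraic `1`-cocycles with values in trace-zero matrices -/
def Zalg : Submodule k (LocGal p → Matrix (Fin 2) (Fin 2) k) where
  carrier := {c | (∀ g h, c (g * h) = (rb g : Matrix (Fin 2) (Fin 2) k) * c h *
    (((rb g)⁻¹ : GL (Fin 2) k) : Matrix (Fin 2) (Fin 2) k) + c g) ∧ ∀ g, (c g).trace = 0}
  zero_mem' := ⟨fun g h => by simp, fun g => by simp⟩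
  add_mem' := fun {c c'} hc hc' => ⟨fun g h => by
    rw [Pi.add_apply, Pi.add_apply, Pi.add_apply, hc.1, hc'.1, Matrix.mul_add, Matrix.add_mul]
    abel, fun g => by rw [Pi.add_apply, Matrix.trace_add, hc.2, hc'.2, add_zero]⟩
  smul_mem' := fun a c hc => ⟨fun g h => by
    rw [Pi.smul_apply, Pi.smul_apply, Pi.smul_apply, hc.1, smul_add, Matrix.mul_smul,
      Matrix.smul_mul], fun g => by rw [Pi.smul_apply, Matrix.trace_smul, hc.2, smul_zero]⟩

/-- the coboundary map, linear in the matrix -/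
def dcobL : Matrix (Fin 2) (Fin 2) k →ₗ[k] (LocGal p → Matrix (Fin 2) (Fin 2) k) where
  toFun := dcob rb
  map_add' := fun n n' => by
    funext g
    simp only [dcob, Pi.add_apply, Matrix.mul_add, Matrix.add_mul]
    abel
  map_smul' := fun a n => by
    funext g
    simp only [dcob, Pi.smul_apply, Matrix.mul_smul, Matrix.smul_mul, RingHom.id_apply, smul_sub]

@[simp] theorem dcobL_apply (n : Matrix (Fin 2) (Fin 2) k) : dcobL rb n = dcob rb n := rfl

/-- algebraic coboundaries -/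
def Balg : Submodule k (LocGal p → Matrix (Fin 2) (Fin 2) k) := (tz k).map (dcobL rb)

/-- coboundaries of upper triangular matrices -/
def Balg0 : Submodule k (LocGal p → Matrix (Fin 2) (Fin 2) k) := (b0 k).map (dcobL rb)

theorem Balg0_le_Balg : Balg0 rb ≤ Balg rb := Submodule.map_mono b0_le_tz

/-- the invariants of the adjoint action on trace-zero matrices -/
def H0alg : Submodule k (Matrix (Fin 2) (Fin 2) k) where
  carrier := {n | n.trace = 0 ∧ ∀ g, (rb g : Matrix (Fin 2) (Fin 2) k) * n *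
    (((rb g)⁻¹ : GL (Fin 2) k) : Matrix (Fin 2) (Fin 2) k) = n}
  zero_mem' := ⟨Matrix.trace_zero _ _, fun g => by simp⟩
  add_mem' := fun {X Y} hX hY => ⟨by rw [Matrix.trace_add, hX.1, hY.1, add_zero], fun g => by
    rw [Matrix.mul_add, Matrix.add_mul, hX.2, hY.2]⟩
  smul_mem' := fun a X hX => ⟨by rw [Matrix.trace_smul, hX.1, smul_zero], fun g => by
    rw [Matrix.mul_smul, Matrix.smul_mul, hX.2]⟩

/-- `#N ≤ #H⁰ * #d(N)` for a space `N` of trace-zero matrices. -/
theorem card_le_mul_card_map_dcob [Finite k] (N : Submodule k (Matrix (Fin 2) (Fin 2) k))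
    (hN : N ≤ tz k) :
    Nat.card ↥N ≤ Nat.card ↥(H0alg rb) * Nat.card ↥(N.map (dcobL rb)) := by
  let f : ↥N →ₗ[k] (LocGal p → Matrix (Fin 2) (Fin 2) k) := (dcobL rb).domRestrict N
  have h1 : Nat.card ↥N = Nat.card ↥(LinearMap.ker f) * Nat.card (↥N ⧸ LinearMap.ker f) :=
    Submodule.card_eq_card_quotient_mul_card (LinearMap.ker f)
  have h2 : Nat.card (↥N ⧸ LinearMap.ker f) = Nat.card ↥(LinearMap.range f) :=
    Nat.card_congr f.quotKerEquivRange.toEquiv
  have h3 : LinearMap.range f = N.map (dcobL rb) := by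
    ext x
    simp only [LinearMap.mem_range, Submodule.mem_map, f]
    constructor
    · rintro ⟨n, rfl⟩
      exact ⟨n.1, n.2, rfl⟩
    · rintro ⟨n, hn, rfl⟩
      exact ⟨⟨n, hn⟩, rfl⟩
  have h4 : Nat.card ↥(LinearMap.ker f) ≤ Nat.card ↥(H0alg rb) := by
    let ι : ↥(LinearMap.ker f) → ↥(H0alg rb) := fun n => ⟨n.1.1, mem_tz.1 (hN n.1.2), fun g => by
      have h := congrFun (LinearMap.mem_ker.1 n.2) g
      change dcob rb n.1.1 g = 0 at h
      rw [dcob, sub_eq_zero] at h
      exact h⟩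
    have hι : Function.Injective ι := by
      intro n n' h
      apply Subtype.ext
      apply Subtype.ext
      exact congrArg (fun x : ↥(H0alg rb) => (x : Matrix (Fin 2) (Fin 2) k)) h
    exact Nat.card_le_card_of_injective ι hι
  rw [h1, h2, h3]
  exact Nat.mul_le_mul_right _ h4

/-! ### the filtration by matrix entries -/

/-- the `(i, j)` entry of a matrix-valued function -/
def entryHom (i j : Fin 2) : (LocGal p → Matrix (Fin 2) (Fin 2) k) →+ (LocGal p → k) where
  toFun c := fun g => c g i j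
  map_zero' := rfl
  map_add' _ _ := rfl

@[simp] theorem entryHom_apply (i j : Fin 2) (c : LocGal p → Matrix (Fin 2) (Fin 2) k)
    (g : LocGal p) : entryHom (p := p) (k := k) i j c g = c g i j := rfl

theorem mem_inf_ker_iff (U : AddSubgroup (LocGal p → Matrix (Fin 2) (Fin 2) k)) (i j : Fin 2)
    (c : LocGal p → Matrix (Fin 2) (Fin 2) k) :
    c ∈ U ⊓ (entryHom i j).ker ↔ c ∈ U ∧ ∀ g, c g i j = 0 := by
  rw [AddSubgroup.mem_inf, AddMonoidHom.mem_ker]
  constructor
  · rintro ⟨h1, h2⟩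
    exact ⟨h1, fun g => congrFun h2 g⟩
  · rintro ⟨h1, h2⟩
    exact ⟨h1, funext h2⟩

/-- two steps: upper triangular trace-zero valued functions -/
theorem ncard_le_two (U : AddSubgroup (LocGal p → Matrix (Fin 2) (Fin 2) k))
    (htr : ∀ c ∈ U, ∀ g, (c g).trace = 0) (hll : ∀ c ∈ U, ∀ g, c g 1 0 = 0)
    (S₂ S₃ : Set (LocGal p → k)) (hS₂ : S₂.Finite) (hS₃ : S₃.Finite)
    (h₂ : ∀ c ∈ U, (fun g => c g 0 0) ∈ S₂)
    (h₃ : ∀ c ∈ U, (∀ g, c g 0 0 = 0) → (fun g => c g 0 1) ∈ S₃) :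
    (U : Set (LocGal p → Matrix (Fin 2) (Fin 2) k)).Finite ∧
      (U : Set (LocGal p → Matrix (Fin 2) (Fin 2) k)).ncard ≤ S₂.ncard * S₃.ncard := by
  -- the kernel of the diagonal entry
  let U₂ : AddSubgroup (LocGal p → Matrix (Fin 2) (Fin 2) k) := U ⊓ (entryHom 0 0).ker
  have hU₂ : (U₂ : Set (LocGal p → Matrix (Fin 2) (Fin 2) k)).Finite ∧
      (U₂ : Set (LocGal p → Matrix (Fin 2) (Fin 2) k)).ncard ≤
        S₃.ncard * ({0} : Set (LocGal p → Matrix (Fin 2) (Fin 2) k)).ncard := by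
    refine ncard_le_of_ker U₂ (entryHom 0 1) S₃ hS₃ (fun c hc => ?_) {0} (Set.finite_singleton _)
      (fun c hc h0 => ?_)
    · have hc' := (mem_inf_ker_iff U 0 0 c).1 hc
      exact h₃ c hc'.1 hc'.2
    · have hc' := (mem_inf_ker_iff U 0 0 c).1 hc
      rw [Set.mem_singleton_iff]
      funext g
      have h00 : c g 0 0 = 0 := hc'.2 g
      have h01 : c g 0 1 = 0 := congrFun h0 g
      have h10 : c g 1 0 = 0 := hll c hc'.1 g
      have h11 : c g 1 1 = 0 := by
        have := htr c hc'.1 g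
        rw [Matrix.trace_fin_two, h00, zero_add] at this
        exact this
      ext i j
      fin_cases i <;> fin_cases j <;> simp [h00, h01, h10, h11]
  rw [Set.ncard_singleton, mul_one] at hU₂
  have hU := ncard_le_of_ker U (entryHom 0 0) S₂ hS₂ (fun c hc => h₂ c hc)
    (U₂ : Set (LocGal p → Matrix (Fin 2) (Fin 2) k)) hU₂.1
    (fun c hc h0 => (mem_inf_ker_iff U 0 0 c).2 ⟨hc, fun g => congrFun h0 g⟩)
  exact ⟨hU.1, hU.2.trans (Nat.mul_le_mul_left _ hU₂.2)⟩

/-- three steps: trace-zero valued functions -/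
theorem ncard_le_three (U : AddSubgroup (LocGal p → Matrix (Fin 2) (Fin 2) k))
    (htr : ∀ c ∈ U, ∀ g, (c g).trace = 0)
    (S₁ S₂ S₃ : Set (LocGal p → k)) (hS₁ : S₁.Finite) (hS₂ : S₂.Finite) (hS₃ : S₃.Finite)
    (h₁ : ∀ c ∈ U, (fun g => c g 1 0) ∈ S₁)
    (h₂ : ∀ c ∈ U, (∀ g, c g 1 0 = 0) → (fun g => c g 0 0) ∈ S₂)
    (h₃ : ∀ c ∈ U, (∀ g, c g 1 0 = 0) → (∀ g, c g 0 0 = 0) → (fun g => c g 0 1) ∈ S₃) :
    (U : Set (LocGal p → Matrix (Fin 2) (Fin 2) k)).Finite ∧
      (U : Set (LocGal p → Matrix (Fin 2) (Fin 2) k)).ncard ≤ S₁.ncard * (S₂.ncard * S₃.ncard) := by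
  let U₁ : AddSubgroup (LocGal p → Matrix (Fin 2) (Fin 2) k) := U ⊓ (entryHom 1 0).ker
  have hU₁ := ncard_le_two U₁ (fun c hc => htr c ((mem_inf_ker_iff U 1 0 c).1 hc).1)
    (fun c hc g => ((mem_inf_ker_iff U 1 0 c).1 hc).2 g) S₂ S₃ hS₂ hS₃
    (fun c hc => h₂ c ((mem_inf_ker_iff U 1 0 c).1 hc).1 ((mem_inf_ker_iff U 1 0 c).1 hc).2)
    (fun c hc h0 => h₃ c ((mem_inf_ker_iff U 1 0 c).1 hc).1
      ((mem_inf_ker_iff U 1 0 c).1 hc).2 h0)
  have hU := ncard_le_of_ker U (entryHom 1 0) S₁ hS₁ (fun c hc => h₁ c hc)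
    (U₁ : Set (LocGal p → Matrix (Fin 2) (Fin 2) k)) hU₁.1
    (fun c hc h0 => (mem_inf_ker_iff U 1 0 c).2 ⟨hc, fun g => congrFun h0 g⟩)
  exact ⟨hU.1, hU.2.trans (Nat.mul_le_mul_left _ hU₁.2)⟩

end Fermat.Agent.S56.Flat.Dev
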