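import Fermat.Agent.S56.Flat.Dev.Count

/-!
# PROJECT T (S56), block (a3) `S56/Flat`, devissage slice `Dev/Bound` (helper16)

`flatZ rb := flatFun rb ⊓ Zalg rb`: the algebraic trace-zero cocycles `c` with `V_c` locally flat,
a `k`-subspace containing the coboundaries `Balg rb`.  Three bounds for `#(flatZ / Balg)`:

* `card_flatZ_quot_le_of_subset` (Case B, and the split case): if `flatZ ⊆ S` with `S` finite,
  then `#(flatZ/Balg) * (#k)³ ≤ #S * #H⁰`;
* `card_flatZ_quot_le_of_UT` (`rb` upper triangular): with bounds `n₁ n₂ n₃` for the flat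
  extensions of `k(χ₁)` by `k(χ₂)`, of `k(χ₁)` by `k(χ₁)`, of `k(χ₂)` by `k(χ₁)` (`ExtBound`),
  `#(flatZ/Balg) * (#k)³ ≤ n₁ n₂ n₃ * #H⁰`;
* `card_flatZ_quot_le_of_UT_of_T2` (`p = 3`): if every flat cocycle is upper triangular up to a
  coboundary, `#(flatZ/Balg) * (#k)² ≤ n₂ n₃ * #H⁰`.
-/

set_option autoImplicit false
set_option linter.style.haveILetI false
set_option linter.unusedVariables false
set_option linter.unusedSimpArgs false

noncomputable section

namespace Fermat.Agent.S56.Flat.Dev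

open Fermat.Agent.S56.Flat.Dict Fermat.Agent.CFT.LocalBridge Matrix

variable {p : ℕ} [Fact p.Prime] {k : Type} [Field k]

/-- **The seam with the character count.**  `ExtBound χ' χ'' n`: the classes `f` of the locally
flat extensions of `k(χ')` (quotient) by `k(χ'')` (sub) lie in a finite set of at most `n`
elements. -/
def ExtBound (χ' χ'' : LocGal p → k) (n : ℕ) : Prop :=
  ∃ S : Set (LocGal p → k), S.Finite ∧ S.ncard ≤ n ∧
    ∀ f : LocGal p → k, (∀ g h, f (g * h) * χ' g = χ'' g * f h + f g * χ' g) →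
      IsLocFlat p (actE χ' χ'' f) → f ∈ S

variable (rb : LocGal p →* GL (Fin 2) k)

theorem dcob_mem_Zalg (n : Matrix (Fin 2) (Fin 2) k) : dcob rb n ∈ Zalg rb := by
  refine ⟨fun g h => ?_, fun g => ?_⟩
  · simp only [dcob, map_mul, _root_.mul_inv_rev, Units.val_mul, Matrix.mul_sub, Matrix.sub_mul]
    have h1 : (rb g : Matrix (Fin 2) (Fin 2) k) * (rb h : Matrix (Fin 2) (Fin 2) k) * n *
        ((((rb h)⁻¹ : GL (Fin 2) k) : Matrix (Fin 2) (Fin 2) k) *
          (((rb g)⁻¹ : GL (Fin 2) k) : Matrix (Fin 2) (Fin 2) k)) =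
        (rb g : Matrix (Fin 2) (Fin 2) k) * ((rb h : Matrix (Fin 2) (Fin 2) k) * n *
          (((rb h)⁻¹ : GL (Fin 2) k) : Matrix (Fin 2) (Fin 2) k)) *
          (((rb g)⁻¹ : GL (Fin 2) k) : Matrix (Fin 2) (Fin 2) k) := by
      simp only [Matrix.mul_assoc]
    rw [h1]
    abel
  · rw [dcob, Matrix.trace_sub, Matrix.trace_mul_comm, ← Matrix.mul_assoc, ← Units.val_mul,
      inv_mul_cancel, Units.val_one, Matrix.one_mul, sub_self]

/-- the cocycle identity without inverses -/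
theorem mul_of_mem_Zalg {c : LocGal p → Matrix (Fin 2) (Fin 2) k} (hc : c ∈ Zalg rb)
    (g h : LocGal p) :
    c (g * h) * (rb g : Matrix (Fin 2) (Fin 2) k) =
      (rb g : Matrix (Fin 2) (Fin 2) k) * c h + c g * (rb g : Matrix (Fin 2) (Fin 2) k) := by
  rw [hc.1 g h, Matrix.add_mul, Matrix.mul_assoc, ← Units.val_mul, inv_mul_cancel, Units.val_one,
    Matrix.mul_one]

section Flat

variable [Finite k] (hflat : IsLocFlat p (actbar rb))

/-- the flat cocycles -/
def flatZ : Submodule k (LocGal p → Matrix (Fin 2) (Fin 2) k) := flatFun rb hflat ⊓ Zalg rb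

theorem mem_flatZ {c : LocGal p → Matrix (Fin 2) (Fin 2) k} :
    c ∈ flatZ rb hflat ↔ IsLocFlat p (actV rb c) ∧ c ∈ Zalg rb := Iff.rfl

theorem Balg_le_flatZ : Balg rb ≤ flatZ rb hflat := by
  rintro _ ⟨n, _, rfl⟩
  exact ⟨dcob_mem_flatFun rb hflat n, dcob_mem_Zalg rb n⟩

theorem finite_flatZ_of_subset (S : Set (LocGal p → Matrix (Fin 2) (Fin 2) k)) (hS : S.Finite)
    (hsub : ∀ c ∈ flatZ rb hflat, c ∈ S) :
    ((flatZ rb hflat : Submodule k _) : Set (LocGal p → Matrix (Fin 2) (Fin 2) k)).Finite :=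
  hS.subset hsub

/-- the general bookkeeping: from `#flatZ ≤ n` to the quotient by the coboundaries -/
theorem card_flatZ_quot_le_of_card_le (n : ℕ)
    (hfin : ((flatZ rb hflat : Submodule k _) :
      Set (LocGal p → Matrix (Fin 2) (Fin 2) k)).Finite)
    (hn : Nat.card ↥(flatZ rb hflat) ≤ n) :
    Finite (↥(flatZ rb hflat) ⧸ (Balg rb).comap (flatZ rb hflat).subtype) ∧
      Nat.card (↥(flatZ rb hflat) ⧸ (Balg rb).comap (flatZ rb hflat).subtype) * Nat.card k ^ 3 ≤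
        n * Nat.card ↥(H0alg rb) := by
  have h1 := card_quot_mul_le (flatZ rb hflat) (flatZ rb hflat) (Balg rb) (Balg rb) hfin
    (Balg_le_flatZ rb hflat) le_rfl (Balg_le_flatZ rb hflat) le_rfl le_sup_left
  refine ⟨h1.1, ?_⟩
  have h2 := card_le_mul_card_map_dcob rb (tz k) le_rfl
  rw [card_tz] at h2
  calc Nat.card (↥(flatZ rb hflat) ⧸ (Balg rb).comap (flatZ rb hflat).subtype) * Nat.card k ^ 3
      ≤ Nat.card (↥(flatZ rb hflat) ⧸ (Balg rb).comap (flatZ rb hflat).subtype) *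
          (Nat.card ↥(H0alg rb) * Nat.card ↥(Balg rb)) := Nat.mul_le_mul_left _ h2
    _ = Nat.card (↥(flatZ rb hflat) ⧸ (Balg rb).comap (flatZ rb hflat).subtype) *
          Nat.card ↥(Balg rb) * Nat.card ↥(H0alg rb) := by ring
    _ ≤ Nat.card ↥(flatZ rb hflat) * Nat.card ↥(H0alg rb) := Nat.mul_le_mul_right _ h1.2
    _ ≤ n * Nat.card ↥(H0alg rb) := Nat.mul_le_mul_right _ hn

/-- **Case B / split case**: all flat cocycles lie in a finite set. -/
theorem card_flatZ_quot_le_of_subset (S : Set (LocGal p → Matrix (Fin 2) (Fin 2) k))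
    (hS : S.Finite) (hsub : ∀ c ∈ flatZ rb hflat, c ∈ S) :
    Finite (↥(flatZ rb hflat) ⧸ (Balg rb).comap (flatZ rb hflat).subtype) ∧
      Nat.card (↥(flatZ rb hflat) ⧸ (Balg rb).comap (flatZ rb hflat).subtype) * Nat.card k ^ 3 ≤
        S.ncard * Nat.card ↥(H0alg rb) := by
  refine card_flatZ_quot_le_of_card_le rb hflat _ (hS.subset hsub) ?_
  rw [← Nat.card_coe_set_eq S]
  haveI : Finite ↥S := hS
  exact Nat.card_le_card_of_injective (fun c : ↥(flatZ rb hflat) => (⟨c.1, hsub c.1 c.2⟩ : ↥S))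
    fun c c' h => Subtype.ext (by
      have h' : (⟨c.1, hsub c.1 c.2⟩ : ↥S) = ⟨c'.1, hsub c'.1 c'.2⟩ := h
      exact Subtype.mk.inj h')

/-- **The reducible case**: `rb` upper triangular. -/
theorem card_flatZ_quot_le_of_UT (hUT : IsUT rb) (n₁ n₂ n₃ : ℕ)
    (H₁ : ExtBound (chi1 rb) (chi2 rb) n₁) (H₂ : ExtBound (chi1 rb) (chi1 rb) n₂)
    (H₃ : ExtBound (chi2 rb) (chi1 rb) n₃) :
    Finite (↥(flatZ rb hflat) ⧸ (Balg rb).comap (flatZ rb hflat).subtype) ∧
      Nat.card (↥(flatZ rb hflat) ⧸ (Balg rb).comap (flatZ rb hflat).subtype) * Nat.card k ^ 3 ≤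
        n₁ * (n₂ * n₃) * Nat.card ↥(H0alg rb) := by
  obtain ⟨S₁, hS₁, hn₁, hS₁f⟩ := H₁
  obtain ⟨S₂, hS₂, hn₂, hS₂f⟩ := H₂
  obtain ⟨S₃, hS₃, hn₃, hS₃f⟩ := H₃
  have h3 := ncard_le_three (flatZ rb hflat).toAddSubgroup (fun c hc g => hc.2.2 g)
    S₁ S₂ S₃ hS₁ hS₂ hS₃
    (fun c hc => hS₁f _ (fun g h => by
        have := congrFun (congrFun (mul_of_mem_Zalg rb hc.2 g h) 1) 0
        simp only [Matrix.mul_apply, Fin.sum_univ_two, Matrix.add_apply, hUT g] at this
        simp only [chi1, chi2]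
        linear_combination this)
      (isLocFlat_actE_lowerLeft hUT hc.1))
    (fun c hc hγ => hS₂f _ (fun g h => by
        have := congrFun (congrFun (mul_of_mem_Zalg rb hc.2 g h) 0) 0
        simp only [Matrix.mul_apply, Fin.sum_univ_two, Matrix.add_apply, hUT g, hγ] at this
        simp only [chi1]
        linear_combination this)
      (isLocFlat_actE_diag hUT hγ hc.1))
    (fun c hc hγ ha => by
      have hd : ∀ g, c g 1 1 = 0 := fun g => by
        have := hc.2.2 g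
        rw [Matrix.trace_fin_two, ha g, zero_add] at this
        exact this
      exact hS₃f _ (fun g h => by
        have := congrFun (congrFun (mul_of_mem_Zalg rb hc.2 g h) 0) 1
        simp only [Matrix.mul_apply, Fin.sum_univ_two, Matrix.add_apply, hUT g, hγ, ha, hd] at this
        simp only [chi1, chi2]
        linear_combination this)
        (isLocFlat_actE_upperRight hUT hγ ha hd hc.1))
  refine card_flatZ_quot_le_of_card_le rb hflat _ h3.1 ?_
  have h4 : Nat.card ↥(flatZ rb hflat) =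
      ((flatZ rb hflat).toAddSubgroup : Set (LocGal p → Matrix (Fin 2) (Fin 2) k)).ncard :=
    Nat.card_coe_set_eq _
  rw [h4]
  exact h3.2.trans (Nat.mul_le_mul hn₁ (Nat.mul_le_mul hn₂ hn₃))

/-- functions with vanishing lower-left entry -/
def LL (p : ℕ) [Fact p.Prime] (k : Type) [Field k] :
    Submodule k (LocGal p → Matrix (Fin 2) (Fin 2) k) where
  carrier := {c | ∀ g, c g 1 0 = 0}
  zero_mem' := fun g => rfl
  add_mem' := fun {c c'} hc hc' g => by rw [Pi.add_apply, Matrix.add_apply, hc g, hc' g, add_zero]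
  smul_mem' := fun a c hc g => by rw [Pi.smul_apply, Matrix.smul_apply, hc g, smul_zero]

omit [Finite k] in
theorem dcob_mem_LL (hUT : IsUT rb) {n : Matrix (Fin 2) (Fin 2) k} (hn : n ∈ b0 k) :
    dcob rb n ∈ LL p k := by
  intro g
  have h1 : (rb g : Matrix (Fin 2) (Fin 2) k) 1 0 = 0 := hUT g
  have h2 : (((rb g)⁻¹ : GL (Fin 2) k) : Matrix (Fin 2) (Fin 2) k) 1 0 = 0 := by
    rw [← map_inv]
    exact hUT g⁻¹
  have h3 : n 1 0 = 0 := hn.2
  simp only [dcob, Matrix.sub_apply, Matrix.mul_apply, Fin.sum_univ_two, h1, h2, h3]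
  ring

/-- **The reducible case for `p = 3`**: every flat cocycle is upper triangular up to a
coboundary (T2). -/
theorem card_flatZ_quot_le_of_UT_of_T2 (hUT : IsUT rb) (n₂ n₃ : ℕ)
    (hT2 : ∀ c ∈ flatZ rb hflat, ∃ n : Matrix (Fin 2) (Fin 2) k, n.trace = 0 ∧
      ∀ g, (c g - dcob rb n g) 1 0 = 0)
    (H₂ : ExtBound (chi1 rb) (chi1 rb) n₂) (H₃ : ExtBound (chi2 rb) (chi1 rb) n₃) :
    Finite (↥(flatZ rb hflat) ⧸ (Balg rb).comap (flatZ rb hflat).subtype) ∧
      Nat.card (↥(flatZ rb hflat) ⧸ (Balg rb).comap (flatZ rb hflat).subtype) * Nat.card k ^ 2 ≤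
        n₂ * n₃ * Nat.card ↥(H0alg rb) := by
  obtain ⟨S₂, hS₂, hn₂, hS₂f⟩ := H₂
  obtain ⟨S₃, hS₃, hn₃, hS₃f⟩ := H₃
  have h2 := ncard_le_two (flatZ rb hflat ⊓ LL p k).toAddSubgroup (fun c hc g => hc.1.2.2 g)
    (fun c hc g => hc.2 g) S₂ S₃ hS₂ hS₃
    (fun c hc => hS₂f _ (fun g h => by
        have := congrFun (congrFun (mul_of_mem_Zalg rb hc.1.2 g h) 0) 0
        simp only [Matrix.mul_apply, Fin.sum_univ_two, Matrix.add_apply, hUT g, hc.2 h,
          hc.2 g, hc.2 (g * h)] at this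
        simp only [chi1]
        linear_combination this)
      (isLocFlat_actE_diag hUT hc.2 hc.1.1))
    (fun c hc ha => by
      have hγ : ∀ g, c g 1 0 = 0 := hc.2
      have hd : ∀ g, c g 1 1 = 0 := fun g => by
        have := hc.1.2.2 g
        rw [Matrix.trace_fin_two, ha g, zero_add] at this
        exact this
      exact hS₃f _ (fun g h => by
        have := congrFun (congrFun (mul_of_mem_Zalg rb hc.1.2 g h) 0) 1
        simp only [Matrix.mul_apply, Fin.sum_univ_two, Matrix.add_apply, hUT g, hγ, ha, hd] at this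
        simp only [chi1, chi2]
        linear_combination this)
        (isLocFlat_actE_upperRight hUT hγ ha hd hc.1.1))
  have hB'U' : Balg0 rb ≤ flatZ rb hflat ⊓ LL p k := by
    rintro _ ⟨n, hn, rfl⟩
    exact ⟨Balg_le_flatZ rb hflat (Balg0_le_Balg rb ⟨n, hn, rfl⟩), dcob_mem_LL rb hUT hn⟩
  have hsup : flatZ rb hflat ≤ (flatZ rb hflat ⊓ LL p k) ⊔ Balg rb := by
    intro c hc
    obtain ⟨n, hn, hcn⟩ := hT2 c hc
    have hnB : dcob rb n ∈ Balg rb := ⟨n, mem_tz.2 hn, rfl⟩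
    refine Submodule.mem_sup.2 ⟨c - dcob rb n, ⟨?_, hcn⟩, dcob rb n, hnB, sub_add_cancel _ _⟩
    exact (flatZ rb hflat).sub_mem hc (Balg_le_flatZ rb hflat hnB)
  have h1 := card_quot_mul_le (flatZ rb hflat) (flatZ rb hflat ⊓ LL p k) (Balg rb) (Balg0 rb)
    h2.1 (Balg_le_flatZ rb hflat) (Balg0_le_Balg rb) hB'U' inf_le_left hsup
  refine ⟨h1.1, ?_⟩
  have h3 := card_le_mul_card_map_dcob rb (b0 k) b0_le_tz
  rw [card_b0] at h3
  have h4 : Nat.card ↥(flatZ rb hflat ⊓ LL p k) =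
      ((flatZ rb hflat ⊓ LL p k).toAddSubgroup :
        Set (LocGal p → Matrix (Fin 2) (Fin 2) k)).ncard :=
    Nat.card_coe_set_eq _
  calc Nat.card (↥(flatZ rb hflat) ⧸ (Balg rb).comap (flatZ rb hflat).subtype) * Nat.card k ^ 2
      ≤ Nat.card (↥(flatZ rb hflat) ⧸ (Balg rb).comap (flatZ rb hflat).subtype) *
          (Nat.card ↥(H0alg rb) * Nat.card ↥(Balg0 rb)) := Nat.mul_le_mul_left _ h3
    _ = Nat.card (↥(flatZ rb hflat) ⧸ (Balg rb).comap (flatZ rb hflat).subtype) *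
          Nat.card ↥(Balg0 rb) * Nat.card ↥(H0alg rb) := by ring
    _ ≤ Nat.card ↥(flatZ rb hflat ⊓ LL p k) * Nat.card ↥(H0alg rb) :=
        Nat.mul_le_mul_right _ h1.2
    _ ≤ n₂ * n₃ * Nat.card ↥(H0alg rb) := by
        rw [h4]
        exact Nat.mul_le_mul_right _ (h2.2.trans (Nat.mul_le_mul hn₂ hn₃))

end Flat

end Fermat.Agent.S56.Flat.Dev
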