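import Fermat.Agent.S56.Flat.Dev.Subspace

/-!
# PROJECT T (S56), block (a3) `S56/Flat`, devissage slice `Dev/Ext3` (helper16)

`rb` upper triangular with diagonal `χ₁ = rb · 0 0`, `χ₂ = rb · 1 1`.  For `c` with `V_c` locally
flat, the three two-dimensional subquotients of (D3):

* `isLocFlat_actE_lowerLeft` : the extension of `k(χ₁)` by `k(χ₂)` of class `g ↦ c g 1 0`;
* `isLocFlat_actE_diag` (if `c · 1 0 = 0`) : the extension of `k(χ₁)` by `k(χ₁)` of class
  `g ↦ c g 0 0`;
* `isLocFlat_actE_upperRight` (if moreover `c · 0 0 = 0 = c · 1 1`) : the extension of `k(χ₂)`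
  by `k(χ₁)` of class `g ↦ c g 0 1` (pull-back + push-out).
-/

set_option autoImplicit false
set_option linter.unusedSimpArgs false
set_option linter.unreachableTactic false
set_option linter.unusedTactic false

noncomputable section

namespace Fermat.Agent.S56.Flat.Dev

open Fermat.Agent.S56.Flat.Dict Fermat.Agent.CFT.LocalBridge Matrix

variable {p : ℕ} [Fact p.Prime] {k : Type} [Field k]

/-- `rb` is upper triangular. -/
def IsUT (rb : LocGal p →* GL (Fin 2) k) : Prop :=
  ∀ g, (rb g : Matrix (Fin 2) (Fin 2) k) 1 0 = 0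

/-- the first diagonal character, as a function -/
def chi1 (rb : LocGal p →* GL (Fin 2) k) : LocGal p → k :=
  fun g => (rb g : Matrix (Fin 2) (Fin 2) k) 0 0

/-- the second diagonal character, as a function -/
def chi2 (rb : LocGal p →* GL (Fin 2) k) : LocGal p → k :=
  fun g => (rb g : Matrix (Fin 2) (Fin 2) k) 1 1

variable {rb : LocGal p →* GL (Fin 2) k} {c : LocGal p → Matrix (Fin 2) (Fin 2) k}

/-- **(D3)(i)** the lower-left entry. -/
theorem isLocFlat_actE_lowerLeft [Finite k] (hUT : IsUT rb) (hc : IsLocFlat p (actV rb c)) :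
    IsLocFlat p (actE (chi1 rb) (chi2 rb) fun g => c g 1 0) := by
  -- the preimage of the line `k e₁`
  let act' : LocGal p → k × (Fin 2 → k) → k × (Fin 2 → k) := fun g z =>
    (chi1 rb g * z.1, (rb g : Matrix (Fin 2) (Fin 2) k) *ᵥ z.2 +
      (chi1 rb g * z.1) • ![c g 0 0, c g 1 0])
  let ι : k × (Fin 2 → k) →+ (Fin 2 → k) × (Fin 2 → k) :=
    { toFun := fun z => (![z.1, 0], z.2)
      map_zero' := by
        refine Prod.ext ?_ rfl
        ext i; fin_cases i <;> rfl
      map_add' := fun z w => by
        refine Prod.ext ?_ rfl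
        ext i; fin_cases i <;> simp }
  have hι : Function.Injective ι := by
    intro z w h
    have h1 : z.1 = w.1 := congrFun (Prod.ext_iff.1 h).1 0
    have h2 : z.2 = w.2 := (Prod.ext_iff.1 h).2
    exact Prod.ext h1 h2
  have hsub : IsLocFlat p act' := by
    refine hc.sub ι hι fun g z => ?_
    change (![(act' g z).1, 0], (act' g z).2) = actV rb c g (![z.1, 0], z.2)
    rw [actV_apply]
    refine Prod.ext ?_ ?_
    · ext i
      fin_cases i <;> simp [act', chi1, Matrix.mulVec, dotProduct, Fin.sum_univ_two, hUT g]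
    · ext i
      fin_cases i <;>
        simp [act', chi1, Matrix.mulVec, dotProduct, Fin.sum_univ_two, hUT g] <;> ring
  let q : k × (Fin 2 → k) →+ k × k :=
    { toFun := fun z => (z.1, z.2 1)
      map_zero' := rfl
      map_add' := fun z w => rfl }
  have hq : Function.Surjective q := fun z => ⟨(z.1, ![0, z.2]), by simp [q]⟩
  have hact' : ∀ g, Function.Surjective (act' g) := by
    intro g z
    obtain ⟨x, hx⟩ := actV_surjective rb c g (![z.1, 0], z.2)
    rw [actV_apply, Prod.ext_iff] at hx
    have hx1 : x.1 = ![x.1 0, 0] := by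
      have h0 := congrFun hx.1 1
      simp only [Matrix.mulVec, dotProduct, Fin.sum_univ_two, hUT g, zero_mul, zero_add,
        Matrix.cons_val_one, Matrix.cons_val_fin_one] at h0
      have hne : (rb g : Matrix (Fin 2) (Fin 2) k) 1 1 ≠ 0 := by
        intro h11
        have hdet : (rb g : Matrix (Fin 2) (Fin 2) k).det = 0 := by
          rw [Matrix.det_fin_two, hUT g, h11]; ring
        have hu := (Matrix.isUnit_iff_isUnit_det (rb g : Matrix (Fin 2) (Fin 2) k)).1
          (rb g).isUnit
        rw [hdet] at hu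
        exact not_isUnit_zero hu
      have : x.1 1 = 0 := by
        rcases mul_eq_zero.1 h0 with h | h
        · exact absurd h hne
        · exact h
      ext i
      fin_cases i
      · rfl
      · simpa using this
    refine ⟨(x.1 0, x.2), ?_⟩
    have key : ι (act' g (x.1 0, x.2)) = ι z := by
      have : ι (act' g (x.1 0, x.2)) = actV rb c g (ι (x.1 0, x.2)) := by
        change (![(act' g (x.1 0, x.2)).1, 0], (act' g (x.1 0, x.2)).2) =
          actV rb c g (![x.1 0, 0], x.2)
        rw [actV_apply]
        refine Prod.ext ?_ ?_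
        · ext i
          fin_cases i <;> simp [act', chi1, Matrix.mulVec, dotProduct, Fin.sum_univ_two, hUT g]
        · ext i
          fin_cases i <;>
            simp [act', chi1, Matrix.mulVec, dotProduct, Fin.sum_univ_two, hUT g] <;> ring
      rw [this]
      change actV rb c g (![x.1 0, 0], x.2) = (![z.1, 0], z.2)
      rw [← hx1, actV_apply]
      exact Prod.ext hx.1 hx.2
    exact hι key
  refine hsub.quot hact' (fun g => ?_) q hq fun g z => ?_
  · simp [actE_apply]
  · change ((act' g z).1, (act' g z).2 1) = actE (chi1 rb) (chi2 rb) (fun g => c g 1 0) g (z.1, z.2 1)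
    rw [actE_apply]
    refine Prod.ext rfl ?_
    simp [act', chi1, chi2, Matrix.mulVec, dotProduct, Fin.sum_univ_two, hUT g]
    ring

/-- **(D3)(ii)** the diagonal entry, when the lower-left entry vanishes. -/
theorem isLocFlat_actE_diag (hUT : IsUT rb) (hγ : ∀ g, c g 1 0 = 0)
    (hc : IsLocFlat p (actV rb c)) :
    IsLocFlat p (actE (chi1 rb) (chi1 rb) fun g => c g 0 0) := by
  let ι : k × k →+ (Fin 2 → k) × (Fin 2 → k) :=
    { toFun := fun z => (![z.1, 0], ![z.2, 0])
      map_zero' := by
        refine Prod.ext ?_ ?_ <;> (ext i; fin_cases i <;> rfl)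
      map_add' := fun z w => by
        refine Prod.ext ?_ ?_ <;> (ext i; fin_cases i <;> simp) }
  have hι : Function.Injective ι := by
    intro z w h
    have h1 : z.1 = w.1 := congrFun (Prod.ext_iff.1 h).1 0
    have h2 : z.2 = w.2 := congrFun (Prod.ext_iff.1 h).2 0
    exact Prod.ext h1 h2
  refine hc.sub ι hι fun g z => ?_
  change (![(actE (chi1 rb) (chi1 rb) (fun g => c g 0 0) g z).1, 0],
    ![(actE (chi1 rb) (chi1 rb) (fun g => c g 0 0) g z).2, 0]) = actV rb c g (![z.1, 0], ![z.2, 0])
  rw [actV_apply, actE_apply]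
  refine Prod.ext ?_ ?_
  · ext i
    fin_cases i <;> simp [chi1, Matrix.mulVec, dotProduct, Fin.sum_univ_two, hUT g]
  · ext i
    fin_cases i <;>
      simp [chi1, Matrix.mulVec, dotProduct, Fin.sum_univ_two, hUT g, hγ g] <;> ring

/-- **(D3)(iii)** the upper-right entry, when all other entries vanish. -/
theorem isLocFlat_actE_upperRight [Finite k] (hUT : IsUT rb) (hγ : ∀ g, c g 1 0 = 0)
    (ha : ∀ g, c g 0 0 = 0) (hd : ∀ g, c g 1 1 = 0) (hc : IsLocFlat p (actV rb c)) :
    IsLocFlat p (actE (chi2 rb) (chi1 rb) fun g => c g 0 1) := by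
  -- the submodule `{(v, w) | w 1 = 0}`
  let act' : LocGal p → (Fin 2 → k) × k → (Fin 2 → k) × k := fun g z =>
    ((rb g : Matrix (Fin 2) (Fin 2) k) *ᵥ z.1,
      chi1 rb g * z.2 + c g 0 1 * (chi2 rb g * z.1 1))
  let ι : (Fin 2 → k) × k →+ (Fin 2 → k) × (Fin 2 → k) :=
    { toFun := fun z => (z.1, ![z.2, 0])
      map_zero' := by
        refine Prod.ext rfl ?_
        ext i; fin_cases i <;> rfl
      map_add' := fun z w => by
        refine Prod.ext rfl ?_
        ext i; fin_cases i <;> simp }
  have hι : Function.Injective ι := by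
    intro z w h
    have h1 : z.1 = w.1 := (Prod.ext_iff.1 h).1
    have h2 : z.2 = w.2 := congrFun (Prod.ext_iff.1 h).2 0
    exact Prod.ext h1 h2
  have hιact : ∀ g z, ι (act' g z) = actV rb c g (ι z) := by
    intro g z
    change ((act' g z).1, ![(act' g z).2, 0]) = actV rb c g (z.1, ![z.2, 0])
    rw [actV_apply]
    refine Prod.ext rfl ?_
    ext i
    fin_cases i <;>
      simp [act', chi1, chi2, Matrix.mulVec, dotProduct, Fin.sum_univ_two, hUT g, hγ g, ha g,
        hd g]
  have hsub : IsLocFlat p act' := hc.sub ι hι hιact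
  let q : (Fin 2 → k) × k →+ k × k :=
    { toFun := fun z => (z.1 1, z.2)
      map_zero' := rfl
      map_add' := fun z w => rfl }
  have hq : Function.Surjective q := fun z => ⟨(![0, z.1], z.2), by simp [q]⟩
  have hact' : ∀ g, Function.Surjective (act' g) := by
    intro g z
    obtain ⟨x, hx⟩ := actV_surjective rb c g (z.1, ![z.2, 0])
    rw [actV_apply, Prod.ext_iff] at hx
    have hx2 : x.2 = ![x.2 0, 0] := by
      have h0 := congrFun hx.2 1
      simp only [Pi.add_apply, Matrix.mulVec, dotProduct, Fin.sum_univ_two, hUT g, hγ g, hd g,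
        zero_mul, zero_add, add_zero, Matrix.cons_val_one, Matrix.cons_val_fin_one] at h0
      have hne : (rb g : Matrix (Fin 2) (Fin 2) k) 1 1 ≠ 0 := by
        intro h11
        have hdet : (rb g : Matrix (Fin 2) (Fin 2) k).det = 0 := by
          rw [Matrix.det_fin_two, hUT g, h11]; ring
        have hu := (Matrix.isUnit_iff_isUnit_det (rb g : Matrix (Fin 2) (Fin 2) k)).1
          (rb g).isUnit
        rw [hdet] at hu
        exact not_isUnit_zero hu
      have : x.2 1 = 0 := by
        rcases mul_eq_zero.1 h0 with h | h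
        · exact absurd h hne
        · exact h
      ext i
      fin_cases i
      · rfl
      · simpa using this
    refine ⟨(x.1, x.2 0), ?_⟩
    have key : ι (act' g (x.1, x.2 0)) = ι z := by
      rw [hιact]
      change actV rb c g (x.1, ![x.2 0, 0]) = (z.1, ![z.2, 0])
      rw [← hx2, actV_apply]
      exact Prod.ext hx.1 hx.2
    exact hι key
  refine hsub.quot hact' (fun g => ?_) q hq fun g z => ?_
  · simp [actE_apply]
  · change ((act' g z).1 1, (act' g z).2) =
      actE (chi2 rb) (chi1 rb) (fun g => c g 0 1) g (z.1 1, z.2)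
    rw [actE_apply]
    refine Prod.ext ?_ rfl
    simp [act', chi2, Matrix.mulVec, dotProduct, Fin.sum_univ_two, hUT g]

end Fermat.Agent.S56.Flat.Dev
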