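import Fermat.Agent.S56.Flat.Dict.LocFlat

/-!
# PROJECT T (S56), block (a3) `S56/Flat`, devissage slice `Dev/Subquot` (helper5)

Step (D3) of the reducible devissage (slice architect's chain): the three subquotients of the
module `V_c = k² ⊕ ε k²` of a lift `r = A + ε B` (`A` upper triangular) of the residual
representation to the dual numbers, as EXPLICIT two-dimensional extensions, and the transfer of
local flatness (`Dict.IsLocFlat`) from `V_c` to each of them.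

Everything is stated for two families of matrices `A B : LocGal p → M₂(k)` with
`A (g h) = A g * A h`, `A 1 = 1`, `B (g h) = A g * B h + B g * A h` (i.e. `g ↦ A g + ε B g` is
multiplicative) and `A g 1 0 = 0`.  The cocycle of the lift is `c g = B g * (A g)⁻¹`.

* `actV A B`     : the action on `V = k² × k²` (`(v, w) = v + ε w`): `g (v, w) = (A v, A w + B v)`;
* `triAct a n d` : the action `(x, y) ↦ (a x, d y + n x)` on `k × k`: an extension of the
                   character `a` (quotient, first coordinate) by the character `d` (sub, second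
                   coordinate) whose class is the cocycle `n / a` in `Z¹(k(d/a))`
                   (`triAct_class`);
* `isLocFlat_X`  : (D3)(i)   `V_c` flat ⇒ `triAct A₀₀ B₁₀ A₁₁` flat (no hypothesis on `B`);
* `isLocFlat_Y`  : (D3)(ii)  if `B₁₀ = 0`: `V_c` flat ⇒ `triAct A₀₀ B₀₀ A₀₀` flat;
* `isLocFlat_Z`  : (D3)(iii) if `B₁₀ = B₀₀ = B₁₁ = 0`: `V_c` flat ⇒ `triAct A₁₁ B₀₁ A₀₀` flat;
* `isLocFlat_subquot` : the general principle (sub + quotient of a finite locally flat module);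
* entries of `c = B * A⁻¹` for upper triangular `A` (`coc_one_zero`, `coc_zero_zero`, ...).
-/

set_option autoImplicit false

namespace Fermat.Agent.S56.Flat.Dev.Subquot

open Fermat.Agent.S56.Flat.Dict Fermat.Agent.CFT.LocalBridge Matrix

/-! ### The general principle -/

section General

variable {p : ℕ} [Fact p.Prime]

/-- A subquotient of a finite locally flat module (by stable subgroups) is locally flat. -/
theorem isLocFlat_subquot {T T'' : Type*} [AddCommGroup T] [AddCommGroup T''] [Finite T]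
    {act : LocGal p → T → T} {act'' : LocGal p → T'' → T''} (h : IsLocFlat p act)
    (hmul : ∀ σ τ t, act (σ * τ) t = act σ (act τ t)) (hone : ∀ t, act 1 t = t)
    (S : AddSubgroup T) (hS : ∀ τ, ∀ t ∈ S, act τ t ∈ S)
    (q : S →+ T'') (hq : Function.Surjective q)
    (hqact : ∀ τ (t : S), q ⟨act τ t, hS τ t t.2⟩ = act'' τ (q t))
    (h0 : ∀ τ, act'' τ 0 = 0) : IsLocFlat p act'' := by
  have h1 : IsLocFlat p (fun τ (t : S) => (⟨act τ t, hS τ t t.2⟩ : S)) :=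
    h.sub S.subtype Subtype.val_injective (fun _ _ => rfl)
  refine h1.quot (fun τ t => ⟨⟨act τ⁻¹ t, hS τ⁻¹ t t.2⟩, ?_⟩) h0 q hq hqact
  apply Subtype.ext
  change act τ (act τ⁻¹ t) = t
  rw [← hmul, mul_inv_cancel, hone]

end General

/-! ### The module `V_c` and the triangular extensions -/

section Defs

variable {Γ : Type*} {k : Type*} [Field k]

/-- The action of `A g + ε B g` on `V = k² × k²`, `(v, w) = v + ε w`. -/
def actV (A B : Γ → Matrix (Fin 2) (Fin 2) k) (g : Γ) (x : (Fin 2 → k) × (Fin 2 → k)) :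
    (Fin 2 → k) × (Fin 2 → k) :=
  (A g *ᵥ x.1, A g *ᵥ x.2 + B g *ᵥ x.1)

/-- The lower triangular action `(x, y) ↦ (a x, d y + n x)` on `k × k`. -/
def triAct (a n d : Γ → k) (g : Γ) (x : k × k) : k × k :=
  (a g * x.1, d g * x.2 + n g * x.1)

@[simp] theorem triAct_zero (a n d : Γ → k) (g : Γ) : triAct a n d g 0 = 0 := by
  simp [triAct]

theorem actV_mul [Mul Γ] (A B : Γ → Matrix (Fin 2) (Fin 2) k)
    (hA : ∀ g h, A (g * h) = A g * A h) (hB : ∀ g h, B (g * h) = A g * B h + B g * A h)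
    (g h : Γ) (x : (Fin 2 → k) × (Fin 2 → k)) :
    actV A B (g * h) x = actV A B g (actV A B h x) := by
  simp only [actV, hA, hB, Matrix.mulVec_add, Matrix.add_mulVec, Matrix.mulVec_mulVec]
  rw [add_assoc]

theorem actV_one [One Γ] (A B : Γ → Matrix (Fin 2) (Fin 2) k) (hA1 : A 1 = 1) (hB1 : B 1 = 0)
    (x : (Fin 2 → k) × (Fin 2 → k)) : actV A B 1 x = x := by
  simp [actV, hA1, hB1]

/-- `B 1 = 0` follows from the product rule (characteristic-free). -/
theorem B_one [Monoid Γ] (A B : Γ → Matrix (Fin 2) (Fin 2) k) (hA1 : A 1 = 1)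
    (hB : ∀ g h, B (g * h) = A g * B h + B g * A h) : B 1 = 0 := by
  have h := hB 1 1
  rw [mul_one, hA1, Matrix.one_mul, Matrix.mul_one] at h
  have h2 : B 1 + 0 = B 1 + B 1 := by rw [add_zero]; exact h
  exact (add_left_cancel h2).symm

end Defs

/-! ### Entry-wise product rules -/

section Entries

variable {Γ : Type*} [Mul Γ] {k : Type*} [Field k]
  (A B : Γ → Matrix (Fin 2) (Fin 2) k)

theorem A_zero_zero_mul (hA : ∀ g h, A (g * h) = A g * A h) (hA10 : ∀ g, A g 1 0 = 0) (g h : Γ) :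
    A (g * h) 0 0 = A g 0 0 * A h 0 0 := by
  rw [hA, Matrix.mul_apply, Fin.sum_univ_two, hA10 h, mul_zero, add_zero]

theorem A_one_one_mul (hA : ∀ g h, A (g * h) = A g * A h) (hA10 : ∀ g, A g 1 0 = 0) (g h : Γ) :
    A (g * h) 1 1 = A g 1 1 * A h 1 1 := by
  rw [hA, Matrix.mul_apply, Fin.sum_univ_two, hA10 g, zero_mul, zero_add]

/-- (i): `n = B₁₀` satisfies `n (g h) = d g * n h + n g * a h` with `a = A₀₀`, `d = A₁₁`. -/
theorem B_one_zero_mul (hB : ∀ g h, B (g * h) = A g * B h + B g * A h)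
    (hA10 : ∀ g, A g 1 0 = 0) (g h : Γ) :
    B (g * h) 1 0 = A g 1 1 * B h 1 0 + B g 1 0 * A h 0 0 := by
  rw [hB, Matrix.add_apply, Matrix.mul_apply, Matrix.mul_apply, Fin.sum_univ_two,
    Fin.sum_univ_two, hA10 g, hA10 h, zero_mul, zero_add, mul_zero, add_zero]

/-- (ii): if `B₁₀ = 0`, `n = B₀₀` satisfies `n (g h) = a g * n h + n g * a h`, `a = A₀₀`. -/
theorem B_zero_zero_mul (hB : ∀ g h, B (g * h) = A g * B h + B g * A h)
    (hA10 : ∀ g, A g 1 0 = 0) (hB10 : ∀ g, B g 1 0 = 0) (g h : Γ) :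
    B (g * h) 0 0 = A g 0 0 * B h 0 0 + B g 0 0 * A h 0 0 := by
  rw [hB, Matrix.add_apply, Matrix.mul_apply, Matrix.mul_apply, Fin.sum_univ_two,
    Fin.sum_univ_two, hB10 h, hA10 h, mul_zero, add_zero, mul_zero, add_zero]

/-- (ii'): if `B₁₀ = 0`, `B₁₁ (g h) = d g * B₁₁ h + B₁₁ g * d h`, `d = A₁₁`. -/
theorem B_one_one_mul (hB : ∀ g h, B (g * h) = A g * B h + B g * A h)
    (hA10 : ∀ g, A g 1 0 = 0) (hB10 : ∀ g, B g 1 0 = 0) (g h : Γ) :
    B (g * h) 1 1 = A g 1 1 * B h 1 1 + B g 1 1 * A h 1 1 := by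
  rw [hB, Matrix.add_apply, Matrix.mul_apply, Matrix.mul_apply, Fin.sum_univ_two,
    Fin.sum_univ_two, hA10 g, hB10 g, zero_mul, zero_add, zero_mul, zero_add]

/-- (iii): if `B₀₀ = B₁₁ = 0`, `n = B₀₁` satisfies `n (g h) = d g * n h + n g * a h` with
`a = A₁₁`, `d = A₀₀`. -/
theorem B_zero_one_mul (hB : ∀ g h, B (g * h) = A g * B h + B g * A h)
    (hB00 : ∀ g, B g 0 0 = 0) (hB11 : ∀ g, B g 1 1 = 0) (g h : Γ) :
    B (g * h) 0 1 = A g 0 0 * B h 0 1 + B g 0 1 * A h 1 1 := by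
  rw [hB, Matrix.add_apply, Matrix.mul_apply, Matrix.mul_apply, Fin.sum_univ_two,
    Fin.sum_univ_two, hB11 h, hB00 g, mul_zero, add_zero, zero_mul, zero_add]

/-- The class of `triAct a n d`: if `n (g h) = d g * n h + n g * a h` and `a` is multiplicative
with non-zero values, then `b = n / a` is a cocycle for the character `d / a`:
`b (g h) = b g + (d g / a g) * b h`. -/
theorem triAct_class (a n d : Γ → k) (ha : ∀ g h, a (g * h) = a g * a h) (ha0 : ∀ g, a g ≠ 0)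
    (hn : ∀ g h, n (g * h) = d g * n h + n g * a h) (g h : Γ) :
    n (g * h) / a (g * h) = n g / a g + d g / a g * (n h / a h) := by
  rw [hn, ha]
  field_simp [ha0 g, ha0 h]
  ring

end Entries

/-! ### The three subquotients -/

section Three

variable {p : ℕ} [Fact p.Prime] {k : Type*} [Field k] [Finite k]
  (A B : LocGal p → Matrix (Fin 2) (Fin 2) k)

/-- (D3)(i): `X = (pre-image of k e₀ in V_c) / ε k e₀`, the extension of the character `A₀₀` by
the character `A₁₁` with `n = B₁₀`.  No hypothesis on `B`. -/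
theorem isLocFlat_X (hA : ∀ g h, A (g * h) = A g * A h) (hA1 : A 1 = 1)
    (hB : ∀ g h, B (g * h) = A g * B h + B g * A h) (hA10 : ∀ g, A g 1 0 = 0)
    (h : IsLocFlat p (actV A B)) :
    IsLocFlat p (triAct (fun g => A g 0 0) (fun g => B g 1 0) (fun g => A g 1 1)) := by
  let S : AddSubgroup ((Fin 2 → k) × (Fin 2 → k)) :=
    { carrier := {x | x.1 1 = 0}
      zero_mem' := rfl
      add_mem' := fun {x y} hx hy => by
        change (x + y).1 1 = 0
        rw [Prod.fst_add, Pi.add_apply, hx, hy, add_zero]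
      neg_mem' := fun {x} hx => by
        change (-x).1 1 = 0
        rw [Prod.fst_neg, Pi.neg_apply, hx, neg_zero] }
  have hS : ∀ τ, ∀ t ∈ S, actV A B τ t ∈ S := by
    intro τ t ht
    change (A τ *ᵥ t.1) 1 = 0
    have ht' : t.1 1 = 0 := ht
    rw [Matrix.mulVec, dotProduct, Fin.sum_univ_two, hA10 τ, ht', zero_mul, mul_zero, add_zero]
  let q : S →+ k × k :=
    { toFun := fun x => (x.1.1 0, x.1.2 1)
      map_zero' := rfl
      map_add' := fun x y => rfl }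
  refine isLocFlat_subquot h (actV_mul A B hA hB) (actV_one A B hA1 (B_one A B hA1 hB)) S hS q
    ?_ ?_ (fun τ => triAct_zero _ _ _ τ)
  · rintro ⟨a, y⟩
    refine ⟨⟨(![a, 0], ![0, y]), ?_⟩, ?_⟩
    · change (![a, 0] : Fin 2 → k) 1 = 0
      simp
    · change ((![a, 0] : Fin 2 → k) 0, (![0, y] : Fin 2 → k) 1) = (a, y)
      simp
  · rintro τ ⟨⟨v, w⟩, ht⟩
    have ht' : v 1 = 0 := ht
    change ((A τ *ᵥ v) 0, (A τ *ᵥ w + B τ *ᵥ v) 1) = (A τ 0 0 * v 0, A τ 1 1 * w 1 + B τ 1 0 * v 0)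
    simp only [Matrix.mulVec, dotProduct, Fin.sum_univ_two, Pi.add_apply, hA10 τ, ht', zero_mul,
      mul_zero, add_zero, zero_add]

/-- (D3)(ii): if `B₁₀ = 0` (the cocycle has values in the Borel `b₀`): `Y = k e₀ ⊕ ε k e₀`, the
free rank-one line lifting `k e₀`; it is the extension of `A₀₀` by `A₀₀` with `n = B₀₀`. -/
theorem isLocFlat_Y (hA : ∀ g h, A (g * h) = A g * A h) (hA1 : A 1 = 1)
    (hB : ∀ g h, B (g * h) = A g * B h + B g * A h) (hA10 : ∀ g, A g 1 0 = 0)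
    (hB10 : ∀ g, B g 1 0 = 0) (h : IsLocFlat p (actV A B)) :
    IsLocFlat p (triAct (fun g => A g 0 0) (fun g => B g 0 0) (fun g => A g 0 0)) := by
  let S : AddSubgroup ((Fin 2 → k) × (Fin 2 → k)) :=
    { carrier := {x | x.1 1 = 0 ∧ x.2 1 = 0}
      zero_mem' := ⟨rfl, rfl⟩
      add_mem' := fun {x y} hx hy => by
        refine ⟨?_, ?_⟩
        · change (x + y).1 1 = 0
          rw [Prod.fst_add, Pi.add_apply, hx.1, hy.1, add_zero]
        · change (x + y).2 1 = 0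
          rw [Prod.snd_add, Pi.add_apply, hx.2, hy.2, add_zero]
      neg_mem' := fun {x} hx => by
        refine ⟨?_, ?_⟩
        · change (-x).1 1 = 0
          rw [Prod.fst_neg, Pi.neg_apply, hx.1, neg_zero]
        · change (-x).2 1 = 0
          rw [Prod.snd_neg, Pi.neg_apply, hx.2, neg_zero] }
  have hS : ∀ τ, ∀ t ∈ S, actV A B τ t ∈ S := by
    intro τ t ht
    have ht1 : t.1 1 = 0 := ht.1
    have ht2 : t.2 1 = 0 := ht.2
    refine ⟨?_, ?_⟩
    · change (A τ *ᵥ t.1) 1 = 0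
      rw [Matrix.mulVec, dotProduct, Fin.sum_univ_two, hA10 τ, ht1, zero_mul, mul_zero, add_zero]
    · change (A τ *ᵥ t.2 + B τ *ᵥ t.1) 1 = 0
      simp only [Matrix.mulVec, dotProduct, Fin.sum_univ_two, Pi.add_apply, hA10 τ, hB10 τ, ht1,
        ht2, zero_mul, mul_zero, add_zero]
  let q : S →+ k × k :=
    { toFun := fun x => (x.1.1 0, x.1.2 0)
      map_zero' := rfl
      map_add' := fun x y => rfl }
  refine isLocFlat_subquot h (actV_mul A B hA hB) (actV_one A B hA1 (B_one A B hA1 hB)) S hS q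
    ?_ ?_ (fun τ => triAct_zero _ _ _ τ)
  · rintro ⟨a, y⟩
    refine ⟨⟨(![a, 0], ![y, 0]), ?_, ?_⟩, ?_⟩
    · change (![a, 0] : Fin 2 → k) 1 = 0
      simp
    · change (![y, 0] : Fin 2 → k) 1 = 0
      simp
    · change ((![a, 0] : Fin 2 → k) 0, (![y, 0] : Fin 2 → k) 0) = (a, y)
      simp
  · rintro τ ⟨⟨v, w⟩, ht⟩
    have ht1 : v 1 = 0 := ht.1
    have ht2 : w 1 = 0 := ht.2
    change ((A τ *ᵥ v) 0, (A τ *ᵥ w + B τ *ᵥ v) 0) = (A τ 0 0 * v 0, A τ 0 0 * w 0 + B τ 0 0 * v 0)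
    simp only [Matrix.mulVec, dotProduct, Fin.sum_univ_two, Pi.add_apply, ht1, ht2,
      mul_zero, add_zero]

/-- (D3)(iii): if `B₁₀ = B₀₀ = B₁₁ = 0` (the cocycle has values in `W₀`, both diagonal characters
of `V_c` are constant): pull-back along `k·1 ⊂ k[ε](A₁₁)` and push-out along the `ε`-coefficient
`k[ε](A₀₀) → k(A₀₀)`; the result is the extension of `A₁₁` by `A₀₀` with `n = B₀₁`. -/
theorem isLocFlat_Z (hA : ∀ g h, A (g * h) = A g * A h) (hA1 : A 1 = 1)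
    (hB : ∀ g h, B (g * h) = A g * B h + B g * A h) (hA10 : ∀ g, A g 1 0 = 0)
    (hB10 : ∀ g, B g 1 0 = 0) (hB00 : ∀ g, B g 0 0 = 0) (hB11 : ∀ g, B g 1 1 = 0)
    (h : IsLocFlat p (actV A B)) :
    IsLocFlat p (triAct (fun g => A g 1 1) (fun g => B g 0 1) (fun g => A g 0 0)) := by
  let S : AddSubgroup ((Fin 2 → k) × (Fin 2 → k)) :=
    { carrier := {x | x.2 1 = 0}
      zero_mem' := rfl
      add_mem' := fun {x y} hx hy => by
        change (x + y).2 1 = 0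
        rw [Prod.snd_add, Pi.add_apply, hx, hy, add_zero]
      neg_mem' := fun {x} hx => by
        change (-x).2 1 = 0
        rw [Prod.snd_neg, Pi.neg_apply, hx, neg_zero] }
  have hS : ∀ τ, ∀ t ∈ S, actV A B τ t ∈ S := by
    intro τ t ht
    have ht2 : t.2 1 = 0 := ht
    change (A τ *ᵥ t.2 + B τ *ᵥ t.1) 1 = 0
    simp only [Matrix.mulVec, dotProduct, Fin.sum_univ_two, Pi.add_apply, hA10 τ, hB10 τ, hB11 τ,
      ht2, zero_mul, mul_zero, add_zero]
  let q : S →+ k × k :=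
    { toFun := fun x => (x.1.1 1, x.1.2 0)
      map_zero' := rfl
      map_add' := fun x y => rfl }
  refine isLocFlat_subquot h (actV_mul A B hA hB) (actV_one A B hA1 (B_one A B hA1 hB)) S hS q
    ?_ ?_ (fun τ => triAct_zero _ _ _ τ)
  · rintro ⟨a, y⟩
    refine ⟨⟨(![0, a], ![y, 0]), ?_⟩, ?_⟩
    · change (![y, 0] : Fin 2 → k) 1 = 0
      simp
    · change ((![0, a] : Fin 2 → k) 1, (![y, 0] : Fin 2 → k) 0) = (a, y)
      simp
  · rintro τ ⟨⟨v, w⟩, ht⟩
    have ht2 : w 1 = 0 := ht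
    change ((A τ *ᵥ v) 1, (A τ *ᵥ w + B τ *ᵥ v) 0) = (A τ 1 1 * v 1, A τ 0 0 * w 0 + B τ 0 1 * v 1)
    simp only [Matrix.mulVec, dotProduct, Fin.sum_univ_two, Pi.add_apply, hA10 τ, hB00 τ, ht2,
      zero_mul, mul_zero, add_zero, zero_add]

end Three

/-! ### The same three statements in the slice architect's frames

`rb : LocGal p →* GL₂(k)` upper triangular with diagonal characters `x₁ x₂`, and
`c : LocGal p → M₂(k)` with `c (g h) = rb g * c h * (rb g)⁻¹ + c g`;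
`V_c` is `fun g z => (rb g *ᵥ z.1, rb g *ᵥ z.2 + c g *ᵥ (rb g *ᵥ z.1))` and the extension of `k(x')`
(quotient) by `k(x'')` (sub) of class `f` is
`fun g z => (x' g * z.1, x'' g * z.2 + f g * (x' g * z.1))`.  The statements are spelled with these
lambda terms so that they apply to any definitions that unfold to them. -/

section Frames

variable {p : ℕ} [Fact p.Prime] {k : Type*} [Field k] [Finite k]
  (rb : LocGal p →* GL (Fin 2) k) (c : LocGal p → Matrix (Fin 2) (Fin 2) k)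

omit [Finite k] in
/-- `A g = rb g`, `B g = c g * rb g` satisfy the product rules. -/
theorem frame_rules
    (hc : ∀ g h, c (g * h) = (rb g : Matrix (Fin 2) (Fin 2) k) * c h *
      (((rb g)⁻¹ : GL (Fin 2) k) : Matrix (Fin 2) (Fin 2) k) + c g) :
    (∀ g h, (rb (g * h) : Matrix (Fin 2) (Fin 2) k) =
        (rb g : Matrix (Fin 2) (Fin 2) k) * (rb h : Matrix (Fin 2) (Fin 2) k)) ∧
      ((rb 1 : GL (Fin 2) k) : Matrix (Fin 2) (Fin 2) k) = 1 ∧
      ∀ g h, c (g * h) * (rb (g * h) : Matrix (Fin 2) (Fin 2) k) =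
        (rb g : Matrix (Fin 2) (Fin 2) k) * (c h * (rb h : Matrix (Fin 2) (Fin 2) k)) +
          c g * (rb g : Matrix (Fin 2) (Fin 2) k) * (rb h : Matrix (Fin 2) (Fin 2) k) := by
  refine ⟨fun g h => by rw [map_mul, Units.val_mul], by rw [map_one, Units.val_one],
    fun g h => ?_⟩
  rw [hc, map_mul, Units.val_mul, Matrix.add_mul]
  congr 1
  · have h1 : (((rb g)⁻¹ : GL (Fin 2) k) : Matrix (Fin 2) (Fin 2) k) *
        ((rb g : Matrix (Fin 2) (Fin 2) k) * (rb h : Matrix (Fin 2) (Fin 2) k)) =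
        (rb h : Matrix (Fin 2) (Fin 2) k) := by
      rw [← Matrix.mul_assoc, ← Units.val_mul, inv_mul_cancel, Units.val_one, Matrix.one_mul]
    rw [Matrix.mul_assoc _ _ ((rb g : Matrix (Fin 2) (Fin 2) k) * _), h1, Matrix.mul_assoc]
  · rw [Matrix.mul_assoc]

omit [Finite k] in
/-- the action of the frame is `actV` for `A = rb`, `B = c * rb` -/
theorem frame_actV :
    (fun (g : LocGal p) (z : (Fin 2 → k) × (Fin 2 → k)) =>
      ((rb g : Matrix (Fin 2) (Fin 2) k) *ᵥ z.1,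
        (rb g : Matrix (Fin 2) (Fin 2) k) *ᵥ z.2 +
          c g *ᵥ ((rb g : Matrix (Fin 2) (Fin 2) k) *ᵥ z.1))) =
      actV (fun g => (rb g : Matrix (Fin 2) (Fin 2) k))
        (fun g => c g * (rb g : Matrix (Fin 2) (Fin 2) k)) := by
  funext g z
  simp only [actV, Matrix.mulVec_mulVec]

variable (x₁ x₂ : LocGal p →* kˣ)

omit [Finite k] in
/-- entries of `c * rb` for upper triangular `rb` -/
theorem frame_entries (h10 : ∀ g, (rb g : Matrix (Fin 2) (Fin 2) k) 1 0 = 0)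
    (hx₁ : ∀ g, ((x₁ g : kˣ) : k) = (rb g : Matrix (Fin 2) (Fin 2) k) 0 0)
    (hx₂ : ∀ g, ((x₂ g : kˣ) : k) = (rb g : Matrix (Fin 2) (Fin 2) k) 1 1) (g : LocGal p) :
    (c g * (rb g : Matrix (Fin 2) (Fin 2) k)) 1 0 = c g 1 0 * (x₁ g : k) ∧
      (c g * (rb g : Matrix (Fin 2) (Fin 2) k)) 0 0 = c g 0 0 * (x₁ g : k) ∧
      (c g 1 0 = 0 → (c g * (rb g : Matrix (Fin 2) (Fin 2) k)) 1 1 = c g 1 1 * (x₂ g : k)) ∧
      (c g 0 0 = 0 → (c g * (rb g : Matrix (Fin 2) (Fin 2) k)) 0 1 = c g 0 1 * (x₂ g : k)) := by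
  refine ⟨?_, ?_, fun h => ?_, fun h => ?_⟩
  · rw [Matrix.mul_apply, Fin.sum_univ_two, h10 g, mul_zero, add_zero, hx₁]
  · rw [Matrix.mul_apply, Fin.sum_univ_two, h10 g, mul_zero, add_zero, hx₁]
  · rw [Matrix.mul_apply, Fin.sum_univ_two, h, zero_mul, zero_add, hx₂]
  · rw [Matrix.mul_apply, Fin.sum_univ_two, h, zero_mul, zero_add, hx₂]

/-- (D3)(i) in the frames: the lower-left entry `c₁₀` is the class of a locally flat extension of
`k(x₁)` by `k(x₂)`. -/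
theorem isLocFlat_X_frame
    (hc : ∀ g h, c (g * h) = (rb g : Matrix (Fin 2) (Fin 2) k) * c h *
      (((rb g)⁻¹ : GL (Fin 2) k) : Matrix (Fin 2) (Fin 2) k) + c g)
    (h10 : ∀ g, (rb g : Matrix (Fin 2) (Fin 2) k) 1 0 = 0)
    (hx₁ : ∀ g, ((x₁ g : kˣ) : k) = (rb g : Matrix (Fin 2) (Fin 2) k) 0 0)
    (hx₂ : ∀ g, ((x₂ g : kˣ) : k) = (rb g : Matrix (Fin 2) (Fin 2) k) 1 1)
    (h : IsLocFlat p (fun (g : LocGal p) (z : (Fin 2 → k) × (Fin 2 → k)) =>
      ((rb g : Matrix (Fin 2) (Fin 2) k) *ᵥ z.1,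
        (rb g : Matrix (Fin 2) (Fin 2) k) *ᵥ z.2 +
          c g *ᵥ ((rb g : Matrix (Fin 2) (Fin 2) k) *ᵥ z.1)))) :
    IsLocFlat p (fun (g : LocGal p) (z : k × k) =>
      ((x₁ g : k) * z.1, (x₂ g : k) * z.2 + c g 1 0 * ((x₁ g : k) * z.1))) := by
  obtain ⟨hA, hA1, hB⟩ := frame_rules rb c hc
  rw [frame_actV] at h
  have hB' : ∀ g h', (fun g => c g * (rb g : Matrix (Fin 2) (Fin 2) k)) (g * h') =
      (rb g : Matrix (Fin 2) (Fin 2) k) * (c h' * (rb h' : Matrix (Fin 2) (Fin 2) k)) +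
        c g * (rb g : Matrix (Fin 2) (Fin 2) k) * (rb h' : Matrix (Fin 2) (Fin 2) k) := hB
  have key := isLocFlat_X (fun g => (rb g : Matrix (Fin 2) (Fin 2) k))
    (fun g => c g * (rb g : Matrix (Fin 2) (Fin 2) k)) hA hA1 hB' h10 h
  have hfun : (fun (g : LocGal p) (z : k × k) =>
      ((x₁ g : k) * z.1, (x₂ g : k) * z.2 + c g 1 0 * ((x₁ g : k) * z.1))) =
      triAct (fun g => (rb g : Matrix (Fin 2) (Fin 2) k) 0 0)
        (fun g => (c g * (rb g : Matrix (Fin 2) (Fin 2) k)) 1 0)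
        (fun g => (rb g : Matrix (Fin 2) (Fin 2) k) 1 1) := by
    funext g z
    have he := frame_entries rb c x₁ x₂ h10 hx₁ hx₂ g
    simp only [triAct]
    rw [he.1, ← hx₁ g, ← hx₂ g, mul_assoc]
  rw [hfun]
  exact key

/-- (D3)(ii) in the frames: if `c₁₀ = 0`, the diagonal entry `c₀₀` is the class of a locally flat
extension of `k(x₁)` by `k(x₁)`. -/
theorem isLocFlat_Y_frame
    (hc : ∀ g h, c (g * h) = (rb g : Matrix (Fin 2) (Fin 2) k) * c h *
      (((rb g)⁻¹ : GL (Fin 2) k) : Matrix (Fin 2) (Fin 2) k) + c g)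
    (h10 : ∀ g, (rb g : Matrix (Fin 2) (Fin 2) k) 1 0 = 0)
    (hx₁ : ∀ g, ((x₁ g : kˣ) : k) = (rb g : Matrix (Fin 2) (Fin 2) k) 0 0)
    (hx₂ : ∀ g, ((x₂ g : kˣ) : k) = (rb g : Matrix (Fin 2) (Fin 2) k) 1 1)
    (hc10 : ∀ g, c g 1 0 = 0)
    (h : IsLocFlat p (fun (g : LocGal p) (z : (Fin 2 → k) × (Fin 2 → k)) =>
      ((rb g : Matrix (Fin 2) (Fin 2) k) *ᵥ z.1,
        (rb g : Matrix (Fin 2) (Fin 2) k) *ᵥ z.2 +
          c g *ᵥ ((rb g : Matrix (Fin 2) (Fin 2) k) *ᵥ z.1)))) :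
    IsLocFlat p (fun (g : LocGal p) (z : k × k) =>
      ((x₁ g : k) * z.1, (x₁ g : k) * z.2 + c g 0 0 * ((x₁ g : k) * z.1))) := by
  obtain ⟨hA, hA1, hB⟩ := frame_rules rb c hc
  rw [frame_actV] at h
  have hB' : ∀ g h', (fun g => c g * (rb g : Matrix (Fin 2) (Fin 2) k)) (g * h') =
      (rb g : Matrix (Fin 2) (Fin 2) k) * (c h' * (rb h' : Matrix (Fin 2) (Fin 2) k)) +
        c g * (rb g : Matrix (Fin 2) (Fin 2) k) * (rb h' : Matrix (Fin 2) (Fin 2) k) := hB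
  have hB10 : ∀ g, (c g * (rb g : Matrix (Fin 2) (Fin 2) k)) 1 0 = 0 := fun g => by
    rw [(frame_entries rb c x₁ x₂ h10 hx₁ hx₂ g).1, hc10, zero_mul]
  have key := isLocFlat_Y (fun g => (rb g : Matrix (Fin 2) (Fin 2) k))
    (fun g => c g * (rb g : Matrix (Fin 2) (Fin 2) k)) hA hA1 hB' h10 hB10 h
  have hfun : (fun (g : LocGal p) (z : k × k) =>
      ((x₁ g : k) * z.1, (x₁ g : k) * z.2 + c g 0 0 * ((x₁ g : k) * z.1))) =
      triAct (fun g => (rb g : Matrix (Fin 2) (Fin 2) k) 0 0)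
        (fun g => (c g * (rb g : Matrix (Fin 2) (Fin 2) k)) 0 0)
        (fun g => (rb g : Matrix (Fin 2) (Fin 2) k) 0 0) := by
    funext g z
    have he := frame_entries rb c x₁ x₂ h10 hx₁ hx₂ g
    simp only [triAct]
    rw [he.2.1, ← hx₁ g, mul_assoc]
  rw [hfun]
  exact key

/-- (D3)(iii) in the frames: if `c₁₀ = c₀₀ = c₁₁ = 0`, the upper-right entry `c₀₁` is the class of
a locally flat extension of `k(x₂)` by `k(x₁)`. -/
theorem isLocFlat_Z_frame
    (hc : ∀ g h, c (g * h) = (rb g : Matrix (Fin 2) (Fin 2) k) * c h *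
      (((rb g)⁻¹ : GL (Fin 2) k) : Matrix (Fin 2) (Fin 2) k) + c g)
    (h10 : ∀ g, (rb g : Matrix (Fin 2) (Fin 2) k) 1 0 = 0)
    (hx₁ : ∀ g, ((x₁ g : kˣ) : k) = (rb g : Matrix (Fin 2) (Fin 2) k) 0 0)
    (hx₂ : ∀ g, ((x₂ g : kˣ) : k) = (rb g : Matrix (Fin 2) (Fin 2) k) 1 1)
    (hc10 : ∀ g, c g 1 0 = 0) (hc00 : ∀ g, c g 0 0 = 0) (hc11 : ∀ g, c g 1 1 = 0)
    (h : IsLocFlat p (fun (g : LocGal p) (z : (Fin 2 → k) × (Fin 2 → k)) =>
      ((rb g : Matrix (Fin 2) (Fin 2) k) *ᵥ z.1,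
        (rb g : Matrix (Fin 2) (Fin 2) k) *ᵥ z.2 +
          c g *ᵥ ((rb g : Matrix (Fin 2) (Fin 2) k) *ᵥ z.1)))) :
    IsLocFlat p (fun (g : LocGal p) (z : k × k) =>
      ((x₂ g : k) * z.1, (x₁ g : k) * z.2 + c g 0 1 * ((x₂ g : k) * z.1))) := by
  obtain ⟨hA, hA1, hB⟩ := frame_rules rb c hc
  rw [frame_actV] at h
  have hB' : ∀ g h', (fun g => c g * (rb g : Matrix (Fin 2) (Fin 2) k)) (g * h') =
      (rb g : Matrix (Fin 2) (Fin 2) k) * (c h' * (rb h' : Matrix (Fin 2) (Fin 2) k)) +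
        c g * (rb g : Matrix (Fin 2) (Fin 2) k) * (rb h' : Matrix (Fin 2) (Fin 2) k) := hB
  have he := frame_entries rb c x₁ x₂ h10 hx₁ hx₂
  have hB10 : ∀ g, (c g * (rb g : Matrix (Fin 2) (Fin 2) k)) 1 0 = 0 := fun g => by
    rw [(he g).1, hc10, zero_mul]
  have hB00 : ∀ g, (c g * (rb g : Matrix (Fin 2) (Fin 2) k)) 0 0 = 0 := fun g => by
    rw [(he g).2.1, hc00, zero_mul]
  have hB11 : ∀ g, (c g * (rb g : Matrix (Fin 2) (Fin 2) k)) 1 1 = 0 := fun g => by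
    rw [(he g).2.2.1 (hc10 g), hc11, zero_mul]
  have key := isLocFlat_Z (fun g => (rb g : Matrix (Fin 2) (Fin 2) k))
    (fun g => c g * (rb g : Matrix (Fin 2) (Fin 2) k)) hA hA1 hB' h10 hB10 hB00 hB11 h
  have hfun : (fun (g : LocGal p) (z : k × k) =>
      ((x₂ g : k) * z.1, (x₁ g : k) * z.2 + c g 0 1 * ((x₂ g : k) * z.1))) =
      triAct (fun g => (rb g : Matrix (Fin 2) (Fin 2) k) 1 1)
        (fun g => (c g * (rb g : Matrix (Fin 2) (Fin 2) k)) 0 1)
        (fun g => (rb g : Matrix (Fin 2) (Fin 2) k) 0 0) := by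
    funext g z
    simp only [triAct]
    rw [(he g).2.2.2 (hc00 g), ← hx₁ g, ← hx₂ g, mul_assoc]
  rw [hfun]
  exact key

end Frames

end Fermat.Agent.S56.Flat.Dev.Subquot
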