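import Fermat.Agent.S56.Flat.Dict.LocFlat

/-!
# PROJECT T (S56), block (a3) `S56/Flat`, devissage slice `Dev/Subspace` (helper16)

`rb : LocGal p →* GL₂(k)` a residual local representation, `c : LocGal p → M₂(k)` a function.
`V_c := V̄ ⊕ ε V̄` with `g (v, w) = (g v, g w + c(g) g v)` (`actV rb c`).

Main result (D1): the set of `c` with `V_c` locally flat is a `k`-SUBMODULE of all functions
(`flatFun`), provided `V̄` itself is locally flat; it contains all coboundaries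
`g ↦ g n g⁻¹ - n` (`dcob_mem_flatFun`).  No cocycle condition is needed for this.
-/

set_option autoImplicit false

noncomputable section

namespace Fermat.Agent.S56.Flat.Dev

open Fermat.Agent.S56.Flat.Dict Fermat.Agent.CFT.LocalBridge Matrix

variable {p : ℕ} [Fact p.Prime] {k : Type} [Field k]

/-- The action on `V̄ = k²`. -/
def actbar (rb : LocGal p →* GL (Fin 2) k) : LocGal p → (Fin 2 → k) → (Fin 2 → k) :=
  fun g v => (rb g : Matrix (Fin 2) (Fin 2) k) *ᵥ v

/-- The action on `V_c = V̄ ⊕ ε V̄`. -/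
def actV (rb : LocGal p →* GL (Fin 2) k) (c : LocGal p → Matrix (Fin 2) (Fin 2) k) :
    LocGal p → (Fin 2 → k) × (Fin 2 → k) → (Fin 2 → k) × (Fin 2 → k) :=
  fun g z => ((rb g : Matrix (Fin 2) (Fin 2) k) *ᵥ z.1,
    (rb g : Matrix (Fin 2) (Fin 2) k) *ᵥ z.2 + c g *ᵥ ((rb g : Matrix (Fin 2) (Fin 2) k) *ᵥ z.1))

/-- The extension of `k(χ')` (quotient) by `k(χ'')` (sub) of class `f`. -/
def actE (χ' χ'' f : LocGal p → k) : LocGal p → k × k → k × k :=
  fun g z => (χ' g * z.1, χ'' g * z.2 + f g * (χ' g * z.1))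

theorem actV_apply (rb : LocGal p →* GL (Fin 2) k) (c : LocGal p → Matrix (Fin 2) (Fin 2) k)
    (g : LocGal p) (z : (Fin 2 → k) × (Fin 2 → k)) :
    actV rb c g z = ((rb g : Matrix (Fin 2) (Fin 2) k) *ᵥ z.1,
      (rb g : Matrix (Fin 2) (Fin 2) k) *ᵥ z.2 +
        c g *ᵥ ((rb g : Matrix (Fin 2) (Fin 2) k) *ᵥ z.1)) := rfl

theorem actE_apply (χ' χ'' f : LocGal p → k) (g : LocGal p) (z : k × k) :
    actE χ' χ'' f g z = (χ' g * z.1, χ'' g * z.2 + f g * (χ' g * z.1)) := rfl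

theorem mulVec_inv_mulVec (rb : LocGal p →* GL (Fin 2) k) (g : LocGal p) (v : Fin 2 → k) :
    (rb g : Matrix (Fin 2) (Fin 2) k) *ᵥ
      ((((rb g)⁻¹ : GL (Fin 2) k) : Matrix (Fin 2) (Fin 2) k) *ᵥ v) = v := by
  rw [Matrix.mulVec_mulVec, ← Units.val_mul, mul_inv_cancel, Units.val_one, Matrix.one_mulVec]

theorem inv_mulVec_mulVec (rb : LocGal p →* GL (Fin 2) k) (g : LocGal p) (v : Fin 2 → k) :
    (((rb g)⁻¹ : GL (Fin 2) k) : Matrix (Fin 2) (Fin 2) k) *ᵥ
      ((rb g : Matrix (Fin 2) (Fin 2) k) *ᵥ v) = v := by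
  rw [Matrix.mulVec_mulVec, ← Units.val_mul, inv_mul_cancel, Units.val_one, Matrix.one_mulVec]

theorem mulVec_left_injective (rb : LocGal p →* GL (Fin 2) k) (g : LocGal p) :
    Function.Injective fun v : Fin 2 → k => (rb g : Matrix (Fin 2) (Fin 2) k) *ᵥ v := by
  intro v w h
  have h' := congrArg
    (fun v => (((rb g)⁻¹ : GL (Fin 2) k) : Matrix (Fin 2) (Fin 2) k) *ᵥ v) h
  simpa only [inv_mulVec_mulVec] using h'

theorem actV_surjective (rb : LocGal p →* GL (Fin 2) k)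
    (c : LocGal p → Matrix (Fin 2) (Fin 2) k) (g : LocGal p) :
    Function.Surjective (actV rb c g) := by
  intro z
  refine ⟨((((rb g)⁻¹ : GL (Fin 2) k) : Matrix (Fin 2) (Fin 2) k) *ᵥ z.1,
    (((rb g)⁻¹ : GL (Fin 2) k) : Matrix (Fin 2) (Fin 2) k) *ᵥ (z.2 - c g *ᵥ z.1)), ?_⟩
  rw [actV_apply]
  simp only [mulVec_inv_mulVec, sub_add_cancel]

section Closure

variable (rb : LocGal p →* GL (Fin 2) k)

theorem isLocFlat_actV_zero (hflat : IsLocFlat p (actbar rb)) :
    IsLocFlat p (actV rb 0) := by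
  have h := hflat.prod hflat
  convert h using 3 with g z
  simp [actV_apply, actbar]

theorem isLocFlat_actV_smul {c : LocGal p → Matrix (Fin 2) (Fin 2) k} (a : k) (ha : a ≠ 0)
    (hc : IsLocFlat p (actV rb c)) : IsLocFlat p (actV rb (a • c)) := by
  let e : (Fin 2 → k) × (Fin 2 → k) ≃+ (Fin 2 → k) × (Fin 2 → k) :=
    { toFun := fun z => (z.1, a⁻¹ • z.2)
      invFun := fun z => (z.1, a • z.2)
      left_inv := fun z => by simp [smul_smul, mul_inv_cancel₀ ha]
      right_inv := fun z => by simp [smul_smul, inv_mul_cancel₀ ha]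
      map_add' := fun z w => by simp }
  refine hc.of_equiv e fun g z => ?_
  change ((actV rb (a • c) g z).1, a⁻¹ • (actV rb (a • c) g z).2) = actV rb c g (z.1, a⁻¹ • z.2)
  simp only [actV_apply, Pi.smul_apply, Matrix.smul_mulVec, smul_add, smul_smul,
    inv_mul_cancel₀ ha, one_smul, Matrix.mulVec_smul]

theorem isLocFlat_actV_add [Finite k] {c₁ c₂ : LocGal p → Matrix (Fin 2) (Fin 2) k}
    (h₁ : IsLocFlat p (actV rb c₁)) (h₂ : IsLocFlat p (actV rb c₂)) :
    IsLocFlat p (actV rb (c₁ + c₂)) := by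
  -- the fibre product `{(v + ε w₁, v + ε w₂)}` inside `V_{c₁} × V_{c₂}`
  let act' : LocGal p → (Fin 2 → k) × (Fin 2 → k) × (Fin 2 → k) →
      (Fin 2 → k) × (Fin 2 → k) × (Fin 2 → k) := fun g z =>
    ((rb g : Matrix (Fin 2) (Fin 2) k) *ᵥ z.1,
      (rb g : Matrix (Fin 2) (Fin 2) k) *ᵥ z.2.1 +
        c₁ g *ᵥ ((rb g : Matrix (Fin 2) (Fin 2) k) *ᵥ z.1),
      (rb g : Matrix (Fin 2) (Fin 2) k) *ᵥ z.2.2 +
        c₂ g *ᵥ ((rb g : Matrix (Fin 2) (Fin 2) k) *ᵥ z.1))
  let ι : (Fin 2 → k) × (Fin 2 → k) × (Fin 2 → k) →+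
      ((Fin 2 → k) × (Fin 2 → k)) × ((Fin 2 → k) × (Fin 2 → k)) :=
    { toFun := fun z => ((z.1, z.2.1), (z.1, z.2.2))
      map_zero' := rfl
      map_add' := fun z w => rfl }
  have hι : Function.Injective ι := by
    intro z w h
    have h1 : z.1 = w.1 := congrArg (fun x => x.1.1) h
    have h2 : z.2.1 = w.2.1 := congrArg (fun x => x.1.2) h
    have h3 : z.2.2 = w.2.2 := congrArg (fun x => x.2.2) h
    exact Prod.ext h1 (Prod.ext h2 h3)
  have hsub : IsLocFlat p act' := (h₁.prod h₂).sub ι hι fun g z => rfl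
  let q : (Fin 2 → k) × (Fin 2 → k) × (Fin 2 → k) →+ (Fin 2 → k) × (Fin 2 → k) :=
    { toFun := fun z => (z.1, z.2.1 + z.2.2)
      map_zero' := by simp
      map_add' := fun z w => by
        refine Prod.ext rfl ?_
        simp only [Prod.fst_add, Prod.snd_add]
        abel }
  have hq : Function.Surjective q := fun z => ⟨(z.1, z.2, 0), by simp [q]⟩
  have hact' : ∀ g, Function.Surjective (act' g) := by
    intro g z
    obtain ⟨x, hx⟩ := actV_surjective rb c₁ g (z.1, z.2.1)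
    obtain ⟨y, hy⟩ := actV_surjective rb c₂ g (z.1, z.2.2)
    rw [actV_apply, Prod.ext_iff] at hx hy
    have hxy : x.1 = y.1 := mulVec_left_injective rb g (hx.1.trans hy.1.symm)
    refine ⟨(x.1, x.2, y.2), ?_⟩
    refine Prod.ext hx.1 (Prod.ext hx.2 ?_)
    change (rb g : Matrix (Fin 2) (Fin 2) k) *ᵥ y.2 +
      c₂ g *ᵥ ((rb g : Matrix (Fin 2) (Fin 2) k) *ᵥ x.1) = z.2.2
    rw [hxy]
    exact hy.2
  refine hsub.quot hact' (fun g => ?_) q hq fun g z => ?_
  · simp [actV_apply]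
  · change ((act' g z).1, (act' g z).2.1 + (act' g z).2.2) = actV rb (c₁ + c₂) g (z.1, z.2.1 + z.2.2)
    simp only [act', actV_apply, Pi.add_apply, Matrix.add_mulVec, Matrix.mulVec_add]
    refine Prod.ext rfl ?_
    simp only
    abel

end Closure

/-- **(D1)** The functions `c` with `V_c` locally flat form a `k`-submodule. -/
def flatFun [Finite k] (rb : LocGal p →* GL (Fin 2) k) (hflat : IsLocFlat p (actbar rb)) :
    Submodule k (LocGal p → Matrix (Fin 2) (Fin 2) k) where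
  carrier := {c | IsLocFlat p (actV rb c)}
  zero_mem' := isLocFlat_actV_zero rb hflat
  add_mem' := fun h₁ h₂ => isLocFlat_actV_add rb h₁ h₂
  smul_mem' := fun a c hc => by
    by_cases ha : a = 0
    · subst ha
      rw [zero_smul]
      exact isLocFlat_actV_zero rb hflat
    · exact isLocFlat_actV_smul rb a ha hc

theorem mem_flatFun [Finite k] {rb : LocGal p →* GL (Fin 2) k} {hflat : IsLocFlat p (actbar rb)}
    {c : LocGal p → Matrix (Fin 2) (Fin 2) k} :
    c ∈ flatFun rb hflat ↔ IsLocFlat p (actV rb c) := Iff.rfl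

/-- The coboundary of a matrix `n`: `g ↦ g n g⁻¹ - n`. -/
def dcob (rb : LocGal p →* GL (Fin 2) k) (n : Matrix (Fin 2) (Fin 2) k) :
    LocGal p → Matrix (Fin 2) (Fin 2) k :=
  fun g => (rb g : Matrix (Fin 2) (Fin 2) k) * n *
    (((rb g)⁻¹ : GL (Fin 2) k) : Matrix (Fin 2) (Fin 2) k) - n

theorem isLocFlat_actV_dcob (rb : LocGal p →* GL (Fin 2) k) (hflat : IsLocFlat p (actbar rb))
    (n : Matrix (Fin 2) (Fin 2) k) : IsLocFlat p (actV rb (dcob rb n)) := by
  let e : (Fin 2 → k) × (Fin 2 → k) ≃+ (Fin 2 → k) × (Fin 2 → k) :=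
    { toFun := fun z => (z.1, z.2 + n *ᵥ z.1)
      invFun := fun z => (z.1, z.2 - n *ᵥ z.1)
      left_inv := fun z => Prod.ext rfl (by simp only [add_sub_cancel_right])
      right_inv := fun z => Prod.ext rfl (by simp only [sub_add_cancel])
      map_add' := fun z w => by
        refine Prod.ext rfl ?_
        simp only [Prod.fst_add, Prod.snd_add, Matrix.mulVec_add]
        abel }
  refine (isLocFlat_actV_zero rb hflat).of_equiv e fun g z => ?_
  change ((actV rb (dcob rb n) g z).1, (actV rb (dcob rb n) g z).2 +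
    n *ᵥ (actV rb (dcob rb n) g z).1) = actV rb 0 g (z.1, z.2 + n *ᵥ z.1)
  simp only [actV_apply, dcob, Pi.zero_apply, Matrix.zero_mulVec, add_zero, Matrix.sub_mulVec,
    Matrix.mulVec_add]
  refine Prod.ext rfl ?_
  simp only
  have h1 : ((rb g : Matrix (Fin 2) (Fin 2) k) * n *
      (((rb g)⁻¹ : GL (Fin 2) k) : Matrix (Fin 2) (Fin 2) k)) *ᵥ
        ((rb g : Matrix (Fin 2) (Fin 2) k) *ᵥ z.1) =
      (rb g : Matrix (Fin 2) (Fin 2) k) *ᵥ (n *ᵥ z.1) := by
    rw [Matrix.mulVec_mulVec, Matrix.mul_assoc, ← Units.val_mul, inv_mul_cancel, Units.val_one,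
      Matrix.mul_one, Matrix.mulVec_mulVec]
  rw [h1]
  abel

theorem dcob_mem_flatFun [Finite k] (rb : LocGal p →* GL (Fin 2) k)
    (hflat : IsLocFlat p (actbar rb)) (n : Matrix (Fin 2) (Fin 2) k) :
    dcob rb n ∈ flatFun rb hflat :=
  isLocFlat_actV_dcob rb hflat n

end Fermat.Agent.S56.Flat.Dev
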